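import Fermat.Agent.S41.Ihara.Defs

/-!
# `conjDelta : Γ₀(N q) →* Γ₀(N)`, `γ ↦ δ γ δ⁻¹` (`δ = diag(q, 1)`)   (S41, package P2)
-/

set_option autoImplicit false

namespace Fermat.Agent.S41.Ihara

open Matrix MatrixGroups CongruenceSubgroup

theorem twist_injective (q : ℕ) [NeZero q] : Function.Injective (twist q) := by
  have hq : (q : ℚ) ≠ 0 := by exact_mod_cast NeZero.ne q
  intro g h hgh
  have e := congrArg (fun x : SL(2, ℚ) => (x : Matrix (Fin 2) (Fin 2) ℚ)) hgh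
  simp only [twist_apply] at e
  have e00 : g 0 0 = h 0 0 := by
    have := congrFun (congrFun e 0) 0
    simpa using this
  have e01 : g 0 1 / (q : ℚ) = h 0 1 / (q : ℚ) := by
    have := congrFun (congrFun e 0) 1
    simpa using this
  have e10 : (q : ℚ) * g 1 0 = (q : ℚ) * h 1 0 := by
    have := congrFun (congrFun e 1) 0
    simpa using this
  have e11 : g 1 1 = h 1 1 := by
    have := congrFun (congrFun e 1) 1
    simpa using this
  ext i j
  fin_cases i <;> fin_cases j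
  · exact e00
  · exact (div_left_inj' hq).mp e01
  · exact mul_left_cancel₀ hq e10
  · exact e11

theorem dvd_of_mem_Gamma0_mul {N q : ℕ} (γ : Gamma0 (N * q)) :
    (q : ℤ) ∣ ((γ : SL(2, ℤ)) : Matrix (Fin 2) (Fin 2) ℤ) 1 0 := by
  have h := Gamma0_mem_iff_dvd.mp γ.2
  exact dvd_trans ⟨(N : ℤ), by push_cast; ring⟩ h

/-- The underlying function of `conjDelta`. -/
def conjDeltaFun (N q : ℕ) [NeZero q] (γ : Gamma0 (N * q)) : Gamma0 N :=
  ⟨⟨!![(γ : SL(2, ℤ)) 0 0, q * (γ : SL(2, ℤ)) 0 1; (γ : SL(2, ℤ)) 1 0 / q, (γ : SL(2, ℤ)) 1 1], by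
      obtain ⟨m, hm⟩ := dvd_of_mem_Gamma0_mul γ
      have hq : (q : ℤ) ≠ 0 := by exact_mod_cast NeZero.ne q
      have hdet := (γ : SL(2, ℤ)).det_coe
      rw [Matrix.det_fin_two] at hdet
      rw [Matrix.det_fin_two_of, hm, Int.mul_ediv_cancel_left _ hq]
      rw [hm] at hdet
      linarith⟩, by
    rw [Gamma0_mem_iff_dvd]
    have hq : (q : ℤ) ≠ 0 := by exact_mod_cast NeZero.ne q
    obtain ⟨m, hm⟩ := Gamma0_mem_iff_dvd.mp γ.2
    show (N : ℤ) ∣ ((γ : SL(2, ℤ)) : Matrix (Fin 2) (Fin 2) ℤ) 1 0 / q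
    rw [hm]
    push_cast
    rw [show (N : ℤ) * q * m = q * (N * m) by ring, Int.mul_ediv_cancel_left _ hq]
    exact dvd_mul_right _ _⟩

theorem twist_mapQ_conjDeltaFun (N q : ℕ) [NeZero q] (γ : Gamma0 (N * q)) :
    twist q (mapQ ((conjDeltaFun N q γ : Gamma0 N) : SL(2, ℤ))) = mapQ (γ : SL(2, ℤ)) := by
  have hq : (q : ℚ) ≠ 0 := by exact_mod_cast NeZero.ne q
  have hqz : (q : ℤ) ≠ 0 := by exact_mod_cast NeZero.ne q
  obtain ⟨m, hm⟩ := dvd_of_mem_Gamma0_mul γ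
  ext i j
  rw [twist_apply]
  fin_cases i <;> fin_cases j
  · simp [mapQ_apply, conjDeltaFun]
  · simp [mapQ_apply, conjDeltaFun]
    field_simp
  · simp only [mapQ_apply, conjDeltaFun]
    simp
    rw [hm, Int.mul_ediv_cancel_left _ hqz]
    push_cast; ring
  · simp [mapQ_apply, conjDeltaFun]

/-- `Γ₀(N q) → Γ₀(N)`, `γ ↦ δ γ δ⁻¹` with `δ = diag(q, 1)`:
`[[a, b], [c, d]] ↦ [[a, q b], [c / q, d]]`. -/
def conjDelta (N q : ℕ) [NeZero q] : Gamma0 (N * q) →* Gamma0 N where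
  toFun := conjDeltaFun N q
  map_one' := by
    apply Subtype.ext
    apply mapQ_injective
    apply twist_injective q
    rw [twist_mapQ_conjDeltaFun]
    simp
  map_mul' γ γ' := by
    apply Subtype.ext
    apply mapQ_injective
    apply twist_injective q
    rw [twist_mapQ_conjDeltaFun]
    simp only [Subgroup.coe_mul, map_mul, twist_mapQ_conjDeltaFun]

theorem twist_mapQ_conjDelta (N q : ℕ) [NeZero q] (γ : Gamma0 (N * q)) :
    twist q (mapQ ((conjDelta N q γ : Gamma0 N) : SL(2, ℤ))) = mapQ (γ : SL(2, ℤ)) :=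
  twist_mapQ_conjDeltaFun N q γ

theorem conjDelta_apply_coe (N q : ℕ) [NeZero q] (γ : Gamma0 (N * q)) :
    (((conjDelta N q γ : Gamma0 N) : SL(2, ℤ)) : Matrix (Fin 2) (Fin 2) ℤ) =
      !![(γ : SL(2, ℤ)) 0 0, q * (γ : SL(2, ℤ)) 0 1;
         (γ : SL(2, ℤ)) 1 0 / q, (γ : SL(2, ℤ)) 1 1] := rfl

/-- The two maps `Γ₀(N q) → Γ₀(N) → Γ₀(N)[1/q]` agree. -/
theorem incl_inclLevel_eq (N q : ℕ) [NeZero q] (γ : Gamma0 (N * q)) :
    incl N q (inclLevel N q γ) = inclTw N q (conjDelta N q γ) := by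
  apply Subtype.ext
  rw [coe_incl, coe_inclTw, twist_mapQ_conjDelta, coe_inclLevel]

theorem conjDelta_injective (N q : ℕ) [NeZero q] : Function.Injective (conjDelta N q) := by
  intro γ γ' h
  apply Subtype.ext
  apply mapQ_injective
  rw [← twist_mapQ_conjDelta N q γ, ← twist_mapQ_conjDelta N q γ', h]

theorem inclLevel_injective (N q : ℕ) : Function.Injective (inclLevel N q) :=
  Subgroup.inclusion_injective _

theorem incl_injective (N q : ℕ) : Function.Injective (incl N q) := by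
  intro γ γ' h
  apply Subtype.ext
  apply mapQ_injective
  have := congrArg (fun x : iharaGroup N q => (x : SL(2, ℚ))) h
  simpa [coe_incl] using this

theorem inclTw_injective (N q : ℕ) [NeZero q] : Function.Injective (inclTw N q) := by
  intro γ γ' h
  apply Subtype.ext
  apply mapQ_injective
  apply twist_injective q
  have := congrArg (fun x : iharaGroup N q => (x : SL(2, ℚ))) h
  simpa [coe_inclTw] using this

/-- `γ ∈ Γ₀(N)` lies in the range of `inclLevel` iff `q ∣ c`. -/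
theorem mem_range_inclLevel_iff {N q : ℕ} (hNq : Nat.Coprime N q) (γ : Gamma0 N) :
    γ ∈ (inclLevel N q).range ↔ (q : ℤ) ∣ ((γ : SL(2, ℤ)) : Matrix (Fin 2) (Fin 2) ℤ) 1 0 := by
  constructor
  · rintro ⟨γ', rfl⟩
    exact dvd_of_mem_Gamma0_mul γ'
  · intro h
    have hN := Gamma0_mem_iff_dvd.mp γ.2
    have hcop : IsCoprime (N : ℤ) (q : ℤ) := by
      exact_mod_cast (Nat.isCoprime_iff_coprime.mpr hNq)
    have hmem : (γ : SL(2, ℤ)) ∈ Gamma0 (N * q) := by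
      rw [Gamma0_mem_iff_dvd]
      push_cast
      exact hcop.mul_dvd hN h
    exact ⟨⟨γ, hmem⟩, rfl⟩

/-- `γ ∈ Γ₀(N)` lies in the range of `conjDelta` iff `q ∣ b`. -/
theorem mem_range_conjDelta_iff {N q : ℕ} [NeZero q] (γ : Gamma0 N) :
    γ ∈ (conjDelta N q).range ↔ (q : ℤ) ∣ ((γ : SL(2, ℤ)) : Matrix (Fin 2) (Fin 2) ℤ) 0 1 := by
  have hqz : (q : ℤ) ≠ 0 := by exact_mod_cast NeZero.ne q
  constructor
  · rintro ⟨γ', rfl⟩
    rw [conjDelta_apply_coe]
    simp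
  · rintro ⟨b', hb'⟩
    have hN := Gamma0_mem_iff_dvd.mp γ.2
    obtain ⟨c', hc'⟩ := hN
    have hdet := (γ : SL(2, ℤ)).det_coe
    rw [Matrix.det_fin_two] at hdet
    let γ₀ : SL(2, ℤ) := ⟨!![(γ : SL(2, ℤ)) 0 0, b'; q * (γ : SL(2, ℤ)) 1 0, (γ : SL(2, ℤ)) 1 1], by
      rw [Matrix.det_fin_two_of]
      rw [hb'] at hdet
      linarith⟩
    have hmem : γ₀ ∈ Gamma0 (N * q) := by
      rw [Gamma0_mem_iff_dvd]
      show ((N * q : ℕ) : ℤ) ∣ (q : ℤ) * ((γ : SL(2, ℤ)) : Matrix (Fin 2) (Fin 2) ℤ) 1 0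
      rw [hc']
      exact ⟨c', by push_cast; ring⟩
    refine ⟨⟨γ₀, hmem⟩, ?_⟩
    apply Subtype.ext
    ext i j
    rw [conjDelta_apply_coe]
    fin_cases i <;> fin_cases j
    · rfl
    · show (q : ℤ) * b' = _
      exact hb'.symm
    · show (q : ℤ) * ((γ : SL(2, ℤ)) : Matrix (Fin 2) (Fin 2) ℤ) 1 0 / q = _
      exact Int.mul_ediv_cancel_left _ hqz
    · rfl

end Fermat.Agent.S41.Ihara
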