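import Fermat.Agent.S41.Ihara.Conj
import Fermat.Prelude.Def_ModularCurve_PeriodMap

/-!
# Homomorphisms on `Γ₀(N)[1/q]` that are parabolic on `Γ₀(N)` kill all trace-`±2` elements
(S41, package P2, second deliverable)

Let `Φ : iharaGroup N q →* K` be a homomorphism such that `Φ (incl N q γ) = 1` for every
`γ ∈ Γ₀(N)` with `trace γ ^ 2 = 4`.  Then `Φ g = 1` for every `g ∈ Γ₀(N)[1/q]` with
`trace g ^ 2 = 4` (`q ≠ 0` coprime to `N`; `q` need not be prime).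

Proof: `g = e (1 + m P)` with `e = ±1`, `P = [[-ac, a²], [-c², ac]]`, `(a, c)` a primitive integral
eigenvector and `m ∈ ℤ[1/q]`.  Complete `(a, c)` to `h = [[a, b], [c, d]] ∈ SL(2, ℤ)` and put
`x = h diag(Q, Q⁻¹) h⁻¹`, `Q = q ^ k`.  Then `x g x⁻¹ = e (1 + Q² m P)`; for `q ^ k ≡ 1 mod N` the
element `x` lies in `Γ₀(N)[1/q]`, and for `k` large `x g x⁻¹` is integral, hence in `Γ₀(N)`.
-/

set_option autoImplicit false

namespace Fermat.Agent.S41.Ihara.Unip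

open Matrix MatrixGroups CongruenceSubgroup

/-- The matrix `e (1 + m P)`, `P = [[-ac, a²], [-c², ac]]`, over `ℚ`. -/
def unipQ (e : ℚ) (he : e ^ 2 = 1) (a c m : ℚ) : SL(2, ℚ) :=
  ⟨!![e * (1 - m * a * c), e * m * a ^ 2; -(e * m * c ^ 2), e * (1 + m * a * c)], by
    rw [Matrix.det_fin_two_of]
    linear_combination he⟩

/-- The matrix `e (1 + m P)`, `P = [[-ac, a²], [-c², ac]]`, over `ℤ`. -/
def unipZ (e : ℤ) (he : e ^ 2 = 1) (a c m : ℤ) : SL(2, ℤ) :=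
  ⟨!![e * (1 - m * a * c), e * m * a ^ 2; -(e * m * c ^ 2), e * (1 + m * a * c)], by
    rw [Matrix.det_fin_two_of]
    linear_combination he⟩

theorem unipQ_coe (e : ℚ) (he : e ^ 2 = 1) (a c m : ℚ) :
    (unipQ e he a c m : Matrix (Fin 2) (Fin 2) ℚ) =
      !![e * (1 - m * a * c), e * m * a ^ 2; -(e * m * c ^ 2), e * (1 + m * a * c)] := rfl

theorem unipZ_coe (e : ℤ) (he : e ^ 2 = 1) (a c m : ℤ) :
    (unipZ e he a c m : Matrix (Fin 2) (Fin 2) ℤ) =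
      !![e * (1 - m * a * c), e * m * a ^ 2; -(e * m * c ^ 2), e * (1 + m * a * c)] := rfl

theorem intCast_sq_eq_one {e : ℤ} (he : e ^ 2 = 1) : ((e : ℚ)) ^ 2 = 1 := by
  exact_mod_cast he

theorem mapQ_unipZ (e : ℤ) (he : e ^ 2 = 1) (a c m : ℤ) :
    mapQ (unipZ e he a c m) = unipQ (e : ℚ) (intCast_sq_eq_one he) a c m := by
  ext i j
  rw [mapQ_apply, unipZ_coe, unipQ_coe]
  fin_cases i <;> fin_cases j <;> simp

theorem trace_unipZ_sq (e : ℤ) (he : e ^ 2 = 1) (a c m : ℤ) :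
    (unipZ e he a c m : Matrix (Fin 2) (Fin 2) ℤ).trace ^ 2 = 4 := by
  rw [unipZ_coe, Matrix.trace_fin_two_of]
  linear_combination 4 * he

/-- The conjugator `h diag(Q, Q⁻¹) h⁻¹` for `h = [[a, b], [c, d]]` of determinant one. -/
def conjElt (a b c d : ℚ) (hdet : a * d - b * c = 1) (Q : ℚ) (hQ : Q ≠ 0) : SL(2, ℚ) :=
  ⟨!![a * d * Q - b * c * Q⁻¹, a * b * (Q⁻¹ - Q); c * d * (Q - Q⁻¹), a * d * Q⁻¹ - b * c * Q], by
    rw [Matrix.det_fin_two_of]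
    have h2 : (a * d - b * c) ^ 2 = 1 := by rw [hdet]; norm_num
    field_simp
    linear_combination Q ^ 2 * h2⟩

theorem conjElt_coe (a b c d : ℚ) (hdet : a * d - b * c = 1) (Q : ℚ) (hQ : Q ≠ 0) :
    (conjElt a b c d hdet Q hQ : Matrix (Fin 2) (Fin 2) ℚ) =
      !![a * d * Q - b * c * Q⁻¹, a * b * (Q⁻¹ - Q); c * d * (Q - Q⁻¹), a * d * Q⁻¹ - b * c * Q] :=
  rfl

/-- Conjugating `e (1 + m P)` by `h diag(Q, Q⁻¹) h⁻¹` multiplies `m` by `Q²`. -/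
theorem conjElt_mul_unipQ (a b c d : ℚ) (hdet : a * d - b * c = 1) (Q : ℚ) (hQ : Q ≠ 0)
    (e : ℚ) (he : e ^ 2 = 1) (m : ℚ) :
    conjElt a b c d hdet Q hQ * unipQ e he a c m =
      unipQ e he a c (Q ^ 2 * m) * conjElt a b c d hdet Q hQ := by
  ext i j
  rw [Matrix.SpecialLinearGroup.coe_mul, Matrix.SpecialLinearGroup.coe_mul, conjElt_coe,
    unipQ_coe, unipQ_coe]
  fin_cases i <;> fin_cases j <;>
    simp [Matrix.mul_apply, Fin.sum_univ_two] <;> field_simp <;> ring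

/-- A trace-zero, determinant-zero `2 × 2` rational matrix `[[u, v], [w, -u]]` is `m P` for a
primitive integral vector `(a, c)`. -/
theorem exists_prim_of_sq_add_mul_eq_zero (u v w : ℚ) (h : u ^ 2 + v * w = 0) :
    ∃ (a c : ℤ) (m : ℚ), IsCoprime a c ∧ u = -(m * a * c) ∧ v = m * a ^ 2 ∧ w = -(m * c ^ 2) := by
  by_cases hv : v = 0
  · have hu : u = 0 := by
      have : u ^ 2 = 0 := by rw [hv] at h; linarith
      exact pow_eq_zero_iff (two_ne_zero) |>.mp this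
    refine ⟨0, 1, -w, isCoprime_zero_left.mpr isUnit_one, ?_, ?_, ?_⟩
    · simp [hu]
    · simp [hv]
    · simp
  · set r : ℚ := -u / v with hr
    have hden : ((r.den : ℤ) : ℚ) ≠ 0 := by
      exact_mod_cast r.den_ne_zero
    have hrd : (r.num : ℚ) = r * ((r.den : ℤ) : ℚ) := by
      have := Rat.num_div_den r
      push_cast
      field_simp at this ⊢
      linarith
    refine ⟨(r.den : ℤ), r.num, v / ((r.den : ℤ) : ℚ) ^ 2, ?_, ?_, ?_, ?_⟩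
    · exact (Rat.isCoprime_num_den r).symm
    · rw [hrd, hr]
      field_simp
    · field_simp
    · rw [hrd, hr]
      field_simp
      linear_combination h

/-- Every element of `SL(2, ℚ)` with `trace ^ 2 = 4` is `e (1 + m P)` for a sign `e` and a primitive
integral vector `(a, c)`. -/
theorem exists_unipQ_of_trace_sq (g : SL(2, ℚ))
    (hg : (g : Matrix (Fin 2) (Fin 2) ℚ).trace ^ 2 = 4) :
    ∃ (e : ℤ) (he : e ^ 2 = 1) (a c : ℤ) (m : ℚ), IsCoprime a c ∧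
      g = unipQ (e : ℚ) (intCast_sq_eq_one he) a c m := by
  have hdet := g.det_coe
  rw [Matrix.det_fin_two] at hdet
  rw [Matrix.trace_fin_two] at hg
  have hcase : g 0 0 + g 1 1 = 2 ∨ g 0 0 + g 1 1 = -2 := by
    have h0 : (g 0 0 + g 1 1 - 2) * (g 0 0 + g 1 1 + 2) = 0 := by linear_combination hg
    rcases mul_eq_zero.mp h0 with h1 | h1
    · left; linarith
    · right; linarith
  have key : ∀ (e : ℤ) (he : e ^ 2 = 1), g 0 0 + g 1 1 = 2 * (e : ℚ) →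
      ∃ (e : ℤ) (he : e ^ 2 = 1) (a c : ℤ) (m : ℚ), IsCoprime a c ∧
        g = unipQ (e : ℚ) (intCast_sq_eq_one he) a c m := by
    intro e he htr
    have heq : ((e : ℚ)) ^ 2 = 1 := intCast_sq_eq_one he
    have hrel : ((e : ℚ) * g 0 0 - 1) ^ 2 + ((e : ℚ) * g 0 1) * ((e : ℚ) * g 1 0) = 0 := by
      linear_combination (g 0 0 ^ 2 + g 0 1 * g 1 0) * heq + g 0 0 * htr - hdet
    obtain ⟨a, c, m, hac, hu, hv, hw⟩ := exists_prim_of_sq_add_mul_eq_zero _ _ _ hrel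
    refine ⟨e, he, a, c, m, hac, ?_⟩
    ext i j
    rw [unipQ_coe]
    fin_cases i <;> fin_cases j
    · show g 0 0 = (e : ℚ) * (1 - m * a * c)
      linear_combination (e : ℚ) * hu - g 0 0 * heq
    · show g 0 1 = (e : ℚ) * m * (a : ℚ) ^ 2
      linear_combination (e : ℚ) * hv - g 0 1 * heq
    · show g 1 0 = -((e : ℚ) * m * (c : ℚ) ^ 2)
      linear_combination (e : ℚ) * hw - g 1 0 * heq
    · show g 1 1 = (e : ℚ) * (1 + m * a * c)
      linear_combination htr - (e : ℚ) * hu + g 0 0 * heq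
  rcases hcase with h | h
  · exact key 1 (by norm_num) (by rw [h]; norm_num)
  · exact key (-1) (by norm_num) (by rw [h]; norm_num)

/-- If `e (1 + m P)` has entries in `ℤ[1/q]` and `(a, c)` is primitive, then `m ∈ ℤ[1/q]`. -/
theorem mem_awayRing_of_unipQ {q : ℕ} (e : ℤ) (he : e ^ 2 = 1) (a c : ℤ) (m : ℚ)
    (hac : IsCoprime a c)
    (h : ∀ i j, (unipQ (e : ℚ) (intCast_sq_eq_one he) a c m : Matrix (Fin 2) (Fin 2) ℚ) i j
      ∈ awayRing q) : m ∈ awayRing q := by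
  have heq : ((e : ℚ)) ^ 2 = 1 := intCast_sq_eq_one he
  have hE : (e : ℚ) ∈ awayRing q := intCast_mem_awayRing q e
  have h00 := h 0 0
  have h01 := h 0 1
  have h10 := h 1 0
  rw [unipQ_coe] at h00 h01 h10
  simp only [Matrix.of_apply, Matrix.cons_val_zero, Matrix.cons_val_one, Matrix.cons_val',
    Matrix.cons_val_fin_one] at h00 h01 h10
  -- `m a c`, `m a²`, `m c²` lie in `ℤ[1/q]`
  have hmac : m * a * c ∈ awayRing q := by
    have h1 : (1 : ℚ) - (e : ℚ) * ((e : ℚ) * (1 - m * a * c)) ∈ awayRing q :=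
      Subring.sub_mem _ (Subring.one_mem _) (Subring.mul_mem _ hE h00)
    have h2 : (1 : ℚ) - (e : ℚ) * ((e : ℚ) * (1 - m * a * c)) = m * a * c := by
      linear_combination (m * a * c - 1) * heq
    rwa [h2] at h1
  have hmaa : m * (a : ℚ) ^ 2 ∈ awayRing q := by
    have h1 : (e : ℚ) * ((e : ℚ) * m * (a : ℚ) ^ 2) ∈ awayRing q := Subring.mul_mem _ hE h01
    have h2 : (e : ℚ) * ((e : ℚ) * m * (a : ℚ) ^ 2) = m * (a : ℚ) ^ 2 := by
      linear_combination (m * (a : ℚ) ^ 2) * heq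
    rwa [h2] at h1
  have hmcc : m * (c : ℚ) ^ 2 ∈ awayRing q := by
    have h1 : -((e : ℚ) * (-((e : ℚ) * m * (c : ℚ) ^ 2))) ∈ awayRing q :=
      Subring.neg_mem _ (Subring.mul_mem _ hE h10)
    have h2 : -((e : ℚ) * (-((e : ℚ) * m * (c : ℚ) ^ 2))) = m * (c : ℚ) ^ 2 := by
      linear_combination (m * (c : ℚ) ^ 2) * heq
    rwa [h2] at h1
  obtain ⟨r, s, hrs⟩ := hac
  have hrsQ : (r : ℚ) * a + s * c = 1 := by exact_mod_cast hrs
  have hm : m = (r : ℚ) ^ 2 * (m * (a : ℚ) ^ 2) + 2 * r * s * (m * a * c)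
      + (s : ℚ) ^ 2 * (m * (c : ℚ) ^ 2) := by
    linear_combination (-(m * ((r : ℚ) * a + s * c + 1))) * hrsQ
  rw [hm]
  have hr : (r : ℚ) ∈ awayRing q := intCast_mem_awayRing q r
  have hs : (s : ℚ) ∈ awayRing q := intCast_mem_awayRing q s
  have h2' : (2 : ℚ) ∈ awayRing q := by
    exact_mod_cast intCast_mem_awayRing q 2
  exact Subring.add_mem _ (Subring.add_mem _ (Subring.mul_mem _ (Subring.pow_mem _ hr 2) hmaa)
    (Subring.mul_mem _ (Subring.mul_mem _ (Subring.mul_mem _ h2' hr) hs) hmac))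
    (Subring.mul_mem _ (Subring.pow_mem _ hs 2) hmcc)

/-- The conjugator `h diag(q^k, q^-k) h⁻¹` lies in `Γ₀(N)[1/q]` as soon as `N ∣ q^(2k) - 1`. -/
theorem conjElt_mem_iharaGroup {N q : ℕ} (hq : q ≠ 0) (a b c d : ℤ)
    (hdet : (a : ℚ) * d - b * c = 1) (k : ℕ) (hQ : (q : ℚ) ^ k ≠ 0)
    (hk : (N : ℤ) ∣ (q : ℤ) ^ (2 * k) - 1) :
    conjElt a b c d hdet ((q : ℚ) ^ k) hQ ∈ iharaGroup N q := by
  have hQm : (q : ℚ) ^ k ∈ awayRing q := Subring.pow_mem _ (natCast_mem_awayRing q q) k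
  have hQi : ((q : ℚ) ^ k)⁻¹ ∈ awayRing q := by
    rw [← inv_pow]
    exact Subring.pow_mem _ (inv_mem_awayRing hq) k
  have hI : ∀ z : ℤ, (z : ℚ) ∈ awayRing q := intCast_mem_awayRing q
  obtain ⟨L, hL⟩ := hk
  have hLQ : ((q : ℚ) ^ k) ^ 2 - 1 = (N : ℚ) * L := by
    have : (((q : ℤ) ^ (2 * k) - 1 : ℤ) : ℚ) = (((N : ℤ) * L : ℤ) : ℚ) := by rw [hL]
    push_cast at this
    rw [← this]
    ring
  refine ⟨fun i j => ?_, (c : ℚ) * d * L * ((q : ℚ) ^ k)⁻¹, ?_, ?_⟩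
  · rw [conjElt_coe]
    fin_cases i <;> fin_cases j
    · show (a : ℚ) * d * (q : ℚ) ^ k - b * c * ((q : ℚ) ^ k)⁻¹ ∈ awayRing q
      exact Subring.sub_mem _ (Subring.mul_mem _ (Subring.mul_mem _ (hI a) (hI d)) hQm)
        (Subring.mul_mem _ (Subring.mul_mem _ (hI b) (hI c)) hQi)
    · show (a : ℚ) * b * (((q : ℚ) ^ k)⁻¹ - (q : ℚ) ^ k) ∈ awayRing q
      exact Subring.mul_mem _ (Subring.mul_mem _ (hI a) (hI b)) (Subring.sub_mem _ hQi hQm)
    · show (c : ℚ) * d * ((q : ℚ) ^ k - ((q : ℚ) ^ k)⁻¹) ∈ awayRing q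
      exact Subring.mul_mem _ (Subring.mul_mem _ (hI c) (hI d)) (Subring.sub_mem _ hQm hQi)
    · show (a : ℚ) * d * ((q : ℚ) ^ k)⁻¹ - b * c * (q : ℚ) ^ k ∈ awayRing q
      exact Subring.sub_mem _ (Subring.mul_mem _ (Subring.mul_mem _ (hI a) (hI d)) hQi)
        (Subring.mul_mem _ (Subring.mul_mem _ (hI b) (hI c)) hQm)
  · exact Subring.mul_mem _ (Subring.mul_mem _ (Subring.mul_mem _ (hI c) (hI d)) (hI L)) hQi
  · rw [conjElt_coe]
    show (c : ℚ) * d * ((q : ℚ) ^ k - ((q : ℚ) ^ k)⁻¹) = N * ((c : ℚ) * d * L * ((q : ℚ) ^ k)⁻¹)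
    field_simp
    linear_combination (c : ℚ) * d * hLQ

/-- An integral matrix lying in `Γ₀(N)[1/q]` lies in `Γ₀(N)` (`q` coprime to `N`). -/
theorem mem_Gamma0_of_mapQ_mem {N q : ℕ} (hqN : Nat.Coprime q N) {γ : SL(2, ℤ)}
    (h : mapQ γ ∈ iharaGroup N q) : γ ∈ Gamma0 N := by
  obtain ⟨-, y, ⟨i, Y, hY⟩, hy⟩ := h
  rw [mapQ_apply] at hy
  rw [Gamma0_mem_iff_dvd]
  have h1 : (γ : Matrix (Fin 2) (Fin 2) ℤ) 1 0 * (q : ℤ) ^ i = (N : ℤ) * Y := by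
    have : (((γ : Matrix (Fin 2) (Fin 2) ℤ) 1 0 : ℚ)) * (q : ℚ) ^ i = (N : ℚ) * Y := by
      rw [hy, mul_assoc, hY]
    exact_mod_cast this
  have hcop : IsCoprime (N : ℤ) ((q : ℤ) ^ i) := by
    have : IsCoprime (N : ℤ) (q : ℤ) := by
      exact_mod_cast (Nat.isCoprime_iff_coprime.mpr hqN.symm)
    exact this.pow_right
  exact hcop.dvd_of_dvd_mul_right ⟨Y, h1⟩

/-- For `q` coprime to `N` some positive power of `q` is `≡ 1 mod N`. -/
theorem exists_pos_pow_modEq_one {N q : ℕ} (hqN : Nat.Coprime q N) :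
    ∃ t : ℕ, 0 < t ∧ (N : ℤ) ∣ (q : ℤ) ^ t - 1 := by
  rcases Nat.eq_zero_or_pos N with hN | hN
  · subst hN
    have hq1 : q = 1 := by simpa using hqN
    exact ⟨1, one_pos, by simp [hq1]⟩
  · refine ⟨N.totient, Nat.totient_pos.mpr hN, ?_⟩
    have h := Nat.ModEq.pow_totient hqN
    have h' : ((q ^ N.totient : ℕ) : ℤ) ≡ ((1 : ℕ) : ℤ) [ZMOD (N : ℤ)] :=
      (Int.natCast_modEq_iff).mpr h
    have h'' := (Int.modEq_iff_dvd.mp h'.symm)
    push_cast at h''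
    exact h''

/-- **Conjugation into `Γ₀(N)`**: every element `g` of `Γ₀(N)[1/q]` with `trace g ^ 2 = 4` is
conjugate, inside `Γ₀(N)[1/q]`, to (the image of) an element of `Γ₀(N)` with `trace ^ 2 = 4`. -/
theorem exists_conj_eq_incl_of_trace_sq {N q : ℕ} (hq : q ≠ 0) (hqN : Nat.Coprime q N)
    (g : iharaGroup N q) (hg : ((g : SL(2, ℚ)) : Matrix (Fin 2) (Fin 2) ℚ).trace ^ 2 = 4) :
    ∃ (x : iharaGroup N q) (γ : Gamma0 N),
      ((γ : SL(2, ℤ)) : Matrix (Fin 2) (Fin 2) ℤ).trace ^ 2 = 4 ∧ x * g * x⁻¹ = incl N q γ := by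
  have hqQ : (q : ℚ) ≠ 0 := by exact_mod_cast hq
  obtain ⟨e, he, a, c, m, hac, hgm⟩ := exists_unipQ_of_trace_sq (g : SL(2, ℚ)) hg
  have hm : m ∈ awayRing q := by
    refine mem_awayRing_of_unipQ e he a c m hac fun i j => ?_
    rw [← hgm]
    exact g.2.1 i j
  obtain ⟨j, M, hM⟩ := hm
  obtain ⟨t, ht, htN⟩ := exists_pos_pow_modEq_one hqN
  -- the exponent
  set k : ℕ := j * t with hk
  have hjk : j ≤ k := by
    rw [hk]
    exact Nat.le_mul_of_pos_right j ht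
  have hkN : (N : ℤ) ∣ (q : ℤ) ^ (2 * k) - 1 := by
    have h1 : (q : ℤ) ^ (2 * k) - 1 = ((q : ℤ) ^ t) ^ (2 * j) - 1 ^ (2 * j) := by
      rw [one_pow, ← pow_mul, hk]
      congr 2
      ring
    rw [h1]
    exact dvd_trans htN (sub_dvd_pow_sub_pow _ _ _)
  -- the integral parameter
  have hQ : (q : ℚ) ^ k ≠ 0 := pow_ne_zero _ hqQ
  have hm' : ((q : ℚ) ^ k) ^ 2 * m = (((q : ℤ) ^ (2 * k - j) * M : ℤ) : ℚ) := by
    have h2 : 2 * k = (2 * k - j) + j := by omega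
    push_cast
    rw [← hM, ← pow_mul, mul_comm k 2]
    conv_lhs => rw [h2, pow_add]
    ring
  -- complete `(a, c)` to a matrix of determinant one
  obtain ⟨r, s, hrs⟩ := hac
  have hdet : (a : ℚ) * (r : ℤ) - ((-s : ℤ) : ℚ) * c = 1 := by
    have : (r : ℚ) * a + s * c = 1 := by exact_mod_cast hrs
    push_cast
    linear_combination this
  have hx := conjElt_mem_iharaGroup (N := N) hq a (-s) c r hdet k hQ hkN
  have hcomm := conjElt_mul_unipQ (a : ℚ) ((-s : ℤ) : ℚ) c (r : ℤ) hdet ((q : ℚ) ^ k) hQ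
    (e : ℚ) (intCast_sq_eq_one he) m
  rw [hm', ← mapQ_unipZ e he a c ((q : ℤ) ^ (2 * k - j) * M), ← hgm] at hcomm
  have hconj : conjElt (a : ℚ) ((-s : ℤ) : ℚ) c (r : ℤ) hdet ((q : ℚ) ^ k) hQ * (g : SL(2, ℚ)) *
      (conjElt (a : ℚ) ((-s : ℤ) : ℚ) c (r : ℤ) hdet ((q : ℚ) ^ k) hQ)⁻¹ =
      mapQ (unipZ e he a c ((q : ℤ) ^ (2 * k - j) * M)) := by
    rw [hcomm, mul_inv_cancel_right]
  have hmemG : mapQ (unipZ e he a c ((q : ℤ) ^ (2 * k - j) * M)) ∈ iharaGroup N q := by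
    rw [← hconj]
    exact Subgroup.mul_mem _ (Subgroup.mul_mem _ hx g.2) (Subgroup.inv_mem _ hx)
  refine ⟨⟨_, hx⟩, ⟨unipZ e he a c ((q : ℤ) ^ (2 * k - j) * M),
    mem_Gamma0_of_mapQ_mem hqN hmemG⟩, trace_unipZ_sq e he a c _, ?_⟩
  apply Subtype.ext
  rw [coe_incl]
  exact hconj

/-- **Main theorem.** A homomorphism on `Γ₀(N)[1/q]` that kills the elements of `Γ₀(N)` with
`trace ^ 2 = 4` kills every element of `Γ₀(N)[1/q]` with `trace ^ 2 = 4`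
(in particular all unipotent elements). -/
theorem map_eq_one_of_trace_sq {K : Type*} [Group K] {N q : ℕ} (hq : q ≠ 0)
    (hqN : Nat.Coprime q N) (Φ : iharaGroup N q →* K)
    (hΦ : ∀ γ : Gamma0 N, ((γ : SL(2, ℤ)) : Matrix (Fin 2) (Fin 2) ℤ).trace ^ 2 = 4 →
      Φ (incl N q γ) = 1)
    (g : iharaGroup N q) (hg : ((g : SL(2, ℚ)) : Matrix (Fin 2) (Fin 2) ℚ).trace ^ 2 = 4) :
    Φ g = 1 := by
  obtain ⟨x, γ, hγ, hx⟩ := exists_conj_eq_incl_of_trace_sq hq hqN g hg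
  have h1 : Φ (x * g * x⁻¹) = 1 := by rw [hx]; exact hΦ γ hγ
  rw [map_mul, map_mul, map_inv] at h1
  have h2 : Φ g = (Φ x)⁻¹ * (Φ x * Φ g * (Φ x)⁻¹) * Φ x := by group
  rw [h2, h1]
  group

/-- Version of `map_eq_one_of_trace_sq` for a prime `q ∤ N`. -/
theorem map_eq_one_of_trace_sq_of_prime {K : Type*} [Group K] {N q : ℕ} (hq : q.Prime)
    (hqN : ¬ q ∣ N) (Φ : iharaGroup N q →* K)
    (hΦ : ∀ γ : Gamma0 N, ((γ : SL(2, ℤ)) : Matrix (Fin 2) (Fin 2) ℤ).trace ^ 2 = 4 →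
      Φ (incl N q γ) = 1)
    (g : iharaGroup N q) (hg : ((g : SL(2, ℚ)) : Matrix (Fin 2) (Fin 2) ℚ).trace ^ 2 = 4) :
    Φ g = 1 :=
  map_eq_one_of_trace_sq hq.ne_zero ((Nat.Prime.coprime_iff_not_dvd hq).mpr hqN) Φ hΦ g hg

/-- Additive version: an additive character of `Γ₀(N)[1/q]` whose restriction to `Γ₀(N)` is a
parabolic homomorphism (Prelude `IsParabolicHom`) vanishes on every element with
`trace ^ 2 = 4`. -/
theorem map_eq_zero_of_trace_sq {A : Type*} [AddCommGroup A] {N q : ℕ} (hq : q ≠ 0)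
    (hqN : Nat.Coprime q N) (Φ : Additive (iharaGroup N q) →+ A)
    (hΦ : ModularCurve.Period.IsParabolicHom (Gamma0 N)
      (Φ.comp (MonoidHom.toAdditive (incl N q))))
    (g : iharaGroup N q) (hg : ((g : SL(2, ℚ)) : Matrix (Fin 2) (Fin 2) ℚ).trace ^ 2 = 4) :
    Φ (Additive.ofMul g) = 0 := by
  have h := map_eq_one_of_trace_sq hq hqN (AddMonoidHom.toMultiplicativeRight Φ)
    (fun γ hγ => congrArg Multiplicative.ofAdd (hΦ γ hγ)) g hg
  exact congrArg Multiplicative.toAdd h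

/-- Upper unipotent elements are killed. -/
theorem map_eq_one_of_upper {K : Type*} [Group K] {N q : ℕ} (hq : q ≠ 0)
    (hqN : Nat.Coprime q N) (Φ : iharaGroup N q →* K)
    (hΦ : ∀ γ : Gamma0 N, ((γ : SL(2, ℤ)) : Matrix (Fin 2) (Fin 2) ℤ).trace ^ 2 = 4 →
      Φ (incl N q γ) = 1)
    (g : iharaGroup N q) (x : ℚ)
    (hg : ((g : SL(2, ℚ)) : Matrix (Fin 2) (Fin 2) ℚ) = !![1, x; 0, 1]) : Φ g = 1 := by
  refine map_eq_one_of_trace_sq hq hqN Φ hΦ g ?_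
  rw [hg, Matrix.trace_fin_two_of]
  norm_num

/-- Lower unipotent elements are killed. -/
theorem map_eq_one_of_lower {K : Type*} [Group K] {N q : ℕ} (hq : q ≠ 0)
    (hqN : Nat.Coprime q N) (Φ : iharaGroup N q →* K)
    (hΦ : ∀ γ : Gamma0 N, ((γ : SL(2, ℤ)) : Matrix (Fin 2) (Fin 2) ℤ).trace ^ 2 = 4 →
      Φ (incl N q γ) = 1)
    (g : iharaGroup N q) (y : ℚ)
    (hg : ((g : SL(2, ℚ)) : Matrix (Fin 2) (Fin 2) ℚ) = !![1, 0; y, 1]) : Φ g = 1 := by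
  refine map_eq_one_of_trace_sq hq hqN Φ hΦ g ?_
  rw [hg, Matrix.trace_fin_two_of]
  norm_num

end Fermat.Agent.S41.Ihara.Unip
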