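import Mathlib

/-!
# The Ihara group `Γ₀(N)[1/q] ≤ SL(2, ℚ)` and its two copies of `Γ₀(N)`  (S41, package P2)

* `awayRing q`   : the subring `ℤ[1/q]` of `ℚ`;
* `iharaGroup N q` : matrices of `SL(2, ℚ)` with entries in `ℤ[1/q]` and lower-left entry in
  `N • ℤ[1/q]`;
* `incl N q`     : the inclusion `Γ₀(N) → Γ₀(N)[1/q]`;
* `inclTw N q`   : the twisted inclusion `γ ↦ δ⁻¹ γ δ`, `δ = diag(q, 1)`,
  i.e. `[[a, b], [c, d]] ↦ [[a, b / q], [q * c, d]]`;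
* `inclLevel N q` : the inclusion `Γ₀(N q) → Γ₀(N)`;
* `conjDelta N q` : `Γ₀(N q) → Γ₀(N)`, `γ ↦ δ γ δ⁻¹`, i.e. `[[a, b], [c, d]] ↦ [[a, q b], [c / q, d]]`.

They satisfy `incl (inclLevel γ) = inclTw (conjDelta γ)`.
-/

set_option autoImplicit false

namespace Fermat.Agent.S41.Ihara

open Matrix MatrixGroups CongruenceSubgroup

/-- The subring `ℤ[1/q]` of `ℚ`. -/
def awayRing (q : ℕ) : Subring ℚ where
  carrier := {x | ∃ (k : ℕ) (m : ℤ), x * (q : ℚ) ^ k = m}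
  mul_mem' := by
    rintro x y ⟨k, m, hx⟩ ⟨j, n, hy⟩
    refine ⟨k + j, m * n, ?_⟩
    push_cast
    rw [← hx, ← hy]; ring
  one_mem' := ⟨0, 1, by simp⟩
  add_mem' := by
    rintro x y ⟨k, m, hx⟩ ⟨j, n, hy⟩
    refine ⟨k + j, m * (q : ℤ) ^ j + n * (q : ℤ) ^ k, ?_⟩
    push_cast
    rw [← hx, ← hy]; ring
  zero_mem' := ⟨0, 0, by simp⟩
  neg_mem' := by
    rintro x ⟨k, m, hx⟩
    refine ⟨k, -m, ?_⟩
    push_cast
    rw [← hx]; ring

theorem mem_awayRing_iff {q : ℕ} {x : ℚ} :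
    x ∈ awayRing q ↔ ∃ (k : ℕ) (m : ℤ), x * (q : ℚ) ^ k = m := Iff.rfl

theorem intCast_mem_awayRing (q : ℕ) (m : ℤ) : (m : ℚ) ∈ awayRing q := ⟨0, m, by simp⟩

theorem natCast_mem_awayRing (q : ℕ) (m : ℕ) : (m : ℚ) ∈ awayRing q := ⟨0, m, by simp⟩

theorem inv_mem_awayRing {q : ℕ} (hq : q ≠ 0) : ((q : ℚ))⁻¹ ∈ awayRing q :=
  ⟨1, 1, by
    have : (q : ℚ) ≠ 0 := by exact_mod_cast hq
    simp [this]⟩

theorem div_pow_mem_awayRing {q : ℕ} (hq : q ≠ 0) (m : ℤ) (k : ℕ) :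
    (m : ℚ) / (q : ℚ) ^ k ∈ awayRing q :=
  ⟨k, m, by
    have : (q : ℚ) ^ k ≠ 0 := pow_ne_zero _ (by exact_mod_cast hq)
    field_simp⟩

/-- The Ihara group `Γ₀(N)[1/q]`: matrices in `SL(2, ℚ)` with entries in `ℤ[1/q]` whose lower-left
entry lies in `N • ℤ[1/q]`. -/
def iharaGroup (N q : ℕ) : Subgroup SL(2, ℚ) where
  carrier := {g | (∀ i j, (g : Matrix (Fin 2) (Fin 2) ℚ) i j ∈ awayRing q) ∧
    ∃ y ∈ awayRing q, (g : Matrix (Fin 2) (Fin 2) ℚ) 1 0 = N * y}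
  mul_mem' := by
    rintro g h ⟨hg, y, hy, hgy⟩ ⟨hh, z, hz, hhz⟩
    refine ⟨fun i j => ?_, y * h 0 0 + g 1 1 * z, ?_, ?_⟩
    · rw [Matrix.SpecialLinearGroup.coe_mul, Matrix.mul_apply]
      exact Subring.sum_mem _ fun k _ => Subring.mul_mem _ (hg i k) (hh k j)
    · exact Subring.add_mem _ (Subring.mul_mem _ hy (hh 0 0)) (Subring.mul_mem _ (hg 1 1) hz)
    · rw [Matrix.SpecialLinearGroup.coe_mul, Matrix.mul_apply, Fin.sum_univ_two, hgy, hhz]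
      ring
  one_mem' := by
    refine ⟨fun i j => ?_, 0, Subring.zero_mem _, by simp⟩
    rw [Matrix.SpecialLinearGroup.coe_one, Matrix.one_apply]
    split_ifs
    · exact Subring.one_mem _
    · exact Subring.zero_mem _
  inv_mem' := by
    rintro g ⟨hg, y, hy, hgy⟩
    refine ⟨fun i j => ?_, -y, Subring.neg_mem _ hy, ?_⟩
    · rw [Matrix.SpecialLinearGroup.coe_inv, Matrix.adjugate_fin_two]
      fin_cases i <;> fin_cases j <;> simp <;>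
        first | exact hg _ _
    · rw [Matrix.SpecialLinearGroup.coe_inv, Matrix.adjugate_fin_two]
      simp [hgy]

theorem mem_iharaGroup_iff {N q : ℕ} {g : SL(2, ℚ)} :
    g ∈ iharaGroup N q ↔ (∀ i j, (g : Matrix (Fin 2) (Fin 2) ℚ) i j ∈ awayRing q) ∧
      ∃ y ∈ awayRing q, (g : Matrix (Fin 2) (Fin 2) ℚ) 1 0 = N * y := Iff.rfl

/-- The base change `SL(2, ℤ) → SL(2, ℚ)`. -/
def mapQ : SL(2, ℤ) →* SL(2, ℚ) := Matrix.SpecialLinearGroup.map (Int.castRingHom ℚ)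

theorem mapQ_apply (g : SL(2, ℤ)) (i j : Fin 2) :
    (mapQ g : Matrix (Fin 2) (Fin 2) ℚ) i j = ((g : Matrix (Fin 2) (Fin 2) ℤ) i j : ℚ) := rfl

theorem mapQ_injective : Function.Injective mapQ := by
  intro g h hgh
  ext i j
  have := congrArg (fun x : SL(2, ℚ) => (x : Matrix (Fin 2) (Fin 2) ℚ) i j) hgh
  simp only [mapQ_apply] at this
  exact_mod_cast this

/-- Conjugation by `δ = diag(q, 1)` on `SL(2, ℚ)`: `g ↦ δ⁻¹ g δ`,
`[[a, b], [c, d]] ↦ [[a, b / q], [q * c, d]]`. -/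
def twist (q : ℕ) [NeZero q] : SL(2, ℚ) →* SL(2, ℚ) where
  toFun g := ⟨!![g 0 0, g 0 1 / q; q * g 1 0, g 1 1], by
    have hq : (q : ℚ) ≠ 0 := by exact_mod_cast NeZero.ne q
    have := g.det_coe
    rw [Matrix.det_fin_two] at this
    rw [Matrix.det_fin_two_of]
    field_simp
    linarith⟩
  map_one' := by
    ext i j
    fin_cases i <;> fin_cases j <;> simp
  map_mul' g h := by
    have hq : (q : ℚ) ≠ 0 := by exact_mod_cast NeZero.ne q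
    ext i j
    fin_cases i <;> fin_cases j <;>
      simp [Matrix.mul_apply, Fin.sum_univ_two] <;> field_simp

theorem twist_apply (q : ℕ) [NeZero q] (g : SL(2, ℚ)) :
    (twist q g : Matrix (Fin 2) (Fin 2) ℚ) = !![g 0 0, g 0 1 / q; q * g 1 0, g 1 1] := rfl

theorem Gamma0_mem_iff_dvd {N : ℕ} {A : SL(2, ℤ)} :
    A ∈ Gamma0 N ↔ (N : ℤ) ∣ (A : Matrix (Fin 2) (Fin 2) ℤ) 1 0 := by
  rw [Gamma0_mem, ZMod.intCast_zmod_eq_zero_iff_dvd]

theorem Gamma0_mul_le (N q : ℕ) : Gamma0 (N * q) ≤ Gamma0 N := by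
  intro A hA
  rw [Gamma0_mem_iff_dvd] at hA ⊢
  exact dvd_trans ⟨(q : ℤ), by push_cast; ring⟩ hA

/-- The inclusion `Γ₀(N q) → Γ₀(N)`. -/
def inclLevel (N q : ℕ) : Gamma0 (N * q) →* Gamma0 N := Subgroup.inclusion (Gamma0_mul_le N q)

theorem coe_inclLevel (N q : ℕ) (γ : Gamma0 (N * q)) :
    ((inclLevel N q γ : Gamma0 N) : SL(2, ℤ)) = (γ : SL(2, ℤ)) := rfl

theorem mapQ_mem_iharaGroup {N q : ℕ} {γ : SL(2, ℤ)} (hγ : γ ∈ Gamma0 N) :
    mapQ γ ∈ iharaGroup N q := by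
  rw [Gamma0_mem_iff_dvd] at hγ
  obtain ⟨m, hm⟩ := hγ
  refine ⟨fun i j => ?_, m, intCast_mem_awayRing q m, ?_⟩
  · rw [mapQ_apply]; exact intCast_mem_awayRing q _
  · rw [mapQ_apply, hm]; push_cast; ring

theorem twist_mapQ_mem_iharaGroup {N q : ℕ} [NeZero q] {γ : SL(2, ℤ)} (hγ : γ ∈ Gamma0 N) :
    twist q (mapQ γ) ∈ iharaGroup N q := by
  rw [Gamma0_mem_iff_dvd] at hγ
  obtain ⟨m, hm⟩ := hγ
  have hq : q ≠ 0 := NeZero.ne q
  refine ⟨fun i j => ?_, q * m, Subring.mul_mem _ (natCast_mem_awayRing q q)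
    (intCast_mem_awayRing q m), ?_⟩
  · have h01 : ((γ : Matrix (Fin 2) (Fin 2) ℤ) 0 1 : ℚ) / (q : ℚ) ∈ awayRing q := by
      simpa using div_pow_mem_awayRing hq ((γ : Matrix (Fin 2) (Fin 2) ℤ) 0 1) 1
    have h10 : (q : ℚ) * ((γ : Matrix (Fin 2) (Fin 2) ℤ) 1 0 : ℚ) ∈ awayRing q :=
      Subring.mul_mem _ (natCast_mem_awayRing q q) (intCast_mem_awayRing q _)
    rw [twist_apply]
    fin_cases i <;> fin_cases j
    · simpa [mapQ_apply] using intCast_mem_awayRing q _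
    · simpa [mapQ_apply] using h01
    · simpa [mapQ_apply] using h10
    · simpa [mapQ_apply] using intCast_mem_awayRing q _
  · rw [twist_apply]
    simp [mapQ_apply, hm]; ring

/-- The inclusion `Γ₀(N) → Γ₀(N)[1/q]`. -/
def incl (N q : ℕ) : Gamma0 N →* iharaGroup N q :=
  (mapQ.comp (Gamma0 N).subtype).codRestrict (iharaGroup N q)
    fun γ => mapQ_mem_iharaGroup γ.2

/-- The twisted inclusion `Γ₀(N) → Γ₀(N)[1/q]`, `γ ↦ δ⁻¹ γ δ` with `δ = diag(q, 1)`. -/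
def inclTw (N q : ℕ) [NeZero q] : Gamma0 N →* iharaGroup N q :=
  ((twist q).comp (mapQ.comp (Gamma0 N).subtype)).codRestrict (iharaGroup N q)
    fun γ => twist_mapQ_mem_iharaGroup γ.2

theorem coe_incl (N q : ℕ) (γ : Gamma0 N) :
    ((incl N q γ : iharaGroup N q) : SL(2, ℚ)) = mapQ (γ : SL(2, ℤ)) := rfl

theorem coe_inclTw (N q : ℕ) [NeZero q] (γ : Gamma0 N) :
    ((inclTw N q γ : iharaGroup N q) : SL(2, ℚ)) = twist q (mapQ (γ : SL(2, ℤ))) := rfl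

end Fermat.Agent.S41.Ihara
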