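import Fermat.Agent.S41.Ihara.Defs

/-!
# The symbol calculus on `Γ₀(N)[1/q]`  (S41, group-theory half of the orbit lemma)

Let `Φ : Γ₀(N)[1/q] →* K` kill the upper unipotent elements (`KillsUpper Φ`).  Then

* `map_eq_of_col` : `Φ g` only depends on the first column of `g`;
* `map_incl_eq_of_col` : for `g₁ g₂ ∈ Γ₀(N)` with the same lower-left entry `m` and upper-left
  entries congruent mod `m`, `Φ (incl g₂) = Φ (incl g₁)`  (the symbol `s(z, m)` is well defined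
  and only depends on `z` mod `m`);
* `map_incl_eq_of_col_unit` : the **unit relation** `s(q^(2k) z, m) = s(z, m) + D`,
  `D = 2 Φ(diag(q^k, q^-k))`;
* `killsUpper_of_T` : `KillsUpper Φ` follows from `Φ(T) = 1` if `K` has exponent prime to `q`;
* `twistI` : conjugation by `diag(q, 1)` on `Γ₀(N)[1/q]`, with `twistI ∘ incl = inclTw`, and
  `KillsUpper Φ → KillsUpper (Φ.comp twistI)`.
-/

set_option autoImplicit false

namespace Fermat.Agent.S41.Ihara.Symbol

open Matrix MatrixGroups CongruenceSubgroup Fermat.Agent.S41.Ihara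

variable {K : Type*} [Group K] {N q : ℕ}

/-- `Φ` kills the upper unipotent elements `[[1, x], [0, 1]]` of `Γ₀(N)[1/q]`. -/
def KillsUpper (Φ : iharaGroup N q →* K) : Prop :=
  ∀ (g : iharaGroup N q) (x : ℚ),
    ((g : SL(2, ℚ)) : Matrix (Fin 2) (Fin 2) ℚ) = !![1, x; 0, 1] → Φ g = 1

/-- The upper unipotent matrix `[[1, x], [0, 1]]` of `SL(2, ℚ)`. -/
def upperQ (x : ℚ) : SL(2, ℚ) := ⟨!![1, x; 0, 1], by simp [Matrix.det_fin_two_of]⟩

theorem upperQ_coe (x : ℚ) : (upperQ x : Matrix (Fin 2) (Fin 2) ℚ) = !![1, x; 0, 1] := rfl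

theorem upperQ_mem_iharaGroup {x : ℚ} (hx : x ∈ awayRing q) : upperQ x ∈ iharaGroup N q := by
  refine ⟨fun i j => ?_, 0, Subring.zero_mem _, by simp [upperQ_coe]⟩
  rw [upperQ_coe]
  fin_cases i <;> fin_cases j
  · simpa using Subring.one_mem (awayRing q)
  · simpa using hx
  · simpa using Subring.zero_mem (awayRing q)
  · simpa using Subring.one_mem (awayRing q)

/-- The upper unipotent element `[[1, x], [0, 1]]` of `Γ₀(N)[1/q]`, `x ∈ ℤ[1/q]`. -/
def upperI (N : ℕ) {q : ℕ} (x : ℚ) (hx : x ∈ awayRing q) : iharaGroup N q :=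
  ⟨upperQ x, upperQ_mem_iharaGroup hx⟩

theorem coe_upperI (x : ℚ) (hx : x ∈ awayRing q) :
    ((upperI N x hx : iharaGroup N q) : SL(2, ℚ)) = upperQ x := rfl

theorem KillsUpper.map_upperI {Φ : iharaGroup N q →* K} (hU : KillsUpper Φ) (x : ℚ)
    (hx : x ∈ awayRing q) : Φ (upperI N x hx) = 1 :=
  hU _ x rfl

/-- Two elements of `SL(2, ℚ)` with the same first column differ by an upper unipotent. -/
theorem inv_mul_eq_upper (A B : SL(2, ℚ)) (h0 : A 0 0 = B 0 0) (h1 : A 1 0 = B 1 0) :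
    ((A⁻¹ * B : SL(2, ℚ)) : Matrix (Fin 2) (Fin 2) ℚ)
      = !![1, A 1 1 * B 0 1 - A 0 1 * B 1 1; 0, 1] := by
  have hA := A.det_coe
  have hB := B.det_coe
  rw [Matrix.det_fin_two] at hA hB
  rw [Matrix.SpecialLinearGroup.coe_mul, Matrix.SpecialLinearGroup.coe_inv,
    Matrix.adjugate_fin_two]
  ext i j
  fin_cases i <;> fin_cases j
  · simp [Matrix.mul_apply, Fin.sum_univ_two]
    rw [← h0, ← h1]; linarith
  · simp [Matrix.mul_apply, Fin.sum_univ_two]
    ring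
  · simp [Matrix.mul_apply, Fin.sum_univ_two]
    rw [← h0, ← h1]; ring
  · simp [Matrix.mul_apply, Fin.sum_univ_two]
    rw [h0, h1]; linarith

/-- **The symbol is well defined**: if `Φ` kills the upper unipotents then `Φ g` only depends
on the first column of `g`. -/
theorem map_eq_of_col {Φ : iharaGroup N q →* K} (hU : KillsUpper Φ) (g h : iharaGroup N q)
    (h0 : (g : SL(2, ℚ)) 0 0 = (h : SL(2, ℚ)) 0 0)
    (h1 : (g : SL(2, ℚ)) 1 0 = (h : SL(2, ℚ)) 1 0) : Φ g = Φ h := by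
  have hk : Φ (g⁻¹ * h) = 1 := by
    refine hU (g⁻¹ * h) ((g : SL(2, ℚ)) 1 1 * (h : SL(2, ℚ)) 0 1
      - (g : SL(2, ℚ)) 0 1 * (h : SL(2, ℚ)) 1 1) ?_
    have := inv_mul_eq_upper (g : SL(2, ℚ)) (h : SL(2, ℚ)) h0 h1
    simpa using this
  rw [map_mul, map_inv, inv_mul_eq_one] at hk
  exact hk

/-- The diagonal matrix `diag(q^k, q^-k)` of `SL(2, ℚ)`. -/
def hDiagQ (q : ℕ) (hq : q ≠ 0) (k : ℕ) : SL(2, ℚ) :=
  ⟨!![(q : ℚ) ^ k, 0; 0, ((q : ℚ) ^ k)⁻¹], by
    have : (q : ℚ) ^ k ≠ 0 := pow_ne_zero _ (by exact_mod_cast hq)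
    simp [Matrix.det_fin_two_of, this]⟩

theorem hDiagQ_coe (q : ℕ) (hq : q ≠ 0) (k : ℕ) :
    (hDiagQ q hq k : Matrix (Fin 2) (Fin 2) ℚ) = !![(q : ℚ) ^ k, 0; 0, ((q : ℚ) ^ k)⁻¹] := rfl

theorem hDiagQ_mem_iharaGroup (N : ℕ) {q : ℕ} (hq : q ≠ 0) (k : ℕ) :
    hDiagQ q hq k ∈ iharaGroup N q := by
  refine ⟨fun i j => ?_, 0, Subring.zero_mem _, by simp [hDiagQ_coe]⟩
  rw [hDiagQ_coe]
  fin_cases i <;> fin_cases j
  · simpa using Subring.pow_mem _ (natCast_mem_awayRing q q) k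
  · simpa using Subring.zero_mem (awayRing q)
  · simpa using Subring.zero_mem (awayRing q)
  · have := div_pow_mem_awayRing hq 1 k
    simpa using this

/-- The diagonal element `diag(q^k, q^-k)` of `Γ₀(N)[1/q]`. -/
def hDiag (N : ℕ) {q : ℕ} (hq : q ≠ 0) (k : ℕ) : iharaGroup N q :=
  ⟨hDiagQ q hq k, hDiagQ_mem_iharaGroup N hq k⟩

theorem coe_hDiag (N : ℕ) {q : ℕ} (hq : q ≠ 0) (k : ℕ) :
    ((hDiag N hq k : iharaGroup N q) : SL(2, ℚ)) = hDiagQ q hq k := rfl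

/-- **The symbol only depends on `z` mod `m`**: two elements of `Γ₀(N)` with the same lower-left
entry `m` and upper-left entries congruent mod `m` have the same image. -/
theorem map_incl_eq_of_col {Φ : iharaGroup N q →* K} (hU : KillsUpper Φ) (g₁ g₂ : Gamma0 N)
    (h10 : (g₂ : SL(2, ℤ)) 1 0 = (g₁ : SL(2, ℤ)) 1 0)
    (h00 : (g₂ : SL(2, ℤ)) 0 0 ≡ (g₁ : SL(2, ℤ)) 0 0 [ZMOD (g₁ : SL(2, ℤ)) 1 0]) :
    Φ (incl N q g₂) = Φ (incl N q g₁) := by
  obtain ⟨t, ht⟩ := (Int.modEq_iff_dvd.mp h00.symm)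
  have hcol : Φ (incl N q g₂) = Φ (upperI N (t : ℚ) (intCast_mem_awayRing q t) * incl N q g₁) := by
    refine map_eq_of_col hU _ _ ?_ ?_
    · rw [Subgroup.coe_mul, coe_incl, coe_incl, coe_upperI, Matrix.SpecialLinearGroup.coe_mul,
        upperQ_coe, Matrix.mul_apply, Fin.sum_univ_two, mapQ_apply, mapQ_apply, mapQ_apply]
      have : ((g₂ : SL(2, ℤ)) 0 0 : ℚ)
          = ((g₁ : SL(2, ℤ)) 0 0 : ℚ) + ((g₁ : SL(2, ℤ)) 1 0 : ℚ) * t := by
        have h := congrArg (fun z : ℤ => (z : ℚ)) ht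
        simp only [Int.cast_sub, Int.cast_mul] at h
        linarith
      simp [this]
      ring
    · rw [Subgroup.coe_mul, coe_incl, coe_incl, coe_upperI, Matrix.SpecialLinearGroup.coe_mul,
        upperQ_coe, Matrix.mul_apply, Fin.sum_univ_two, mapQ_apply, mapQ_apply, mapQ_apply]
      simp [h10]
  rw [hcol, map_mul, hU.map_upperI, one_mul]

/-- **The unit relation**: if `g, g₂ ∈ Γ₀(N)` have the same lower-left entry `m` and the
upper-left entry of `g₂` is `≡ q^(2k) ·` that of `g` mod `m`, then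
`Φ (incl g₂) = Φ(h) Φ(incl g) Φ(h)` with `h = diag(q^k, q^-k)`. -/
theorem map_incl_eq_of_col_unit {Φ : iharaGroup N q →* K} (hU : KillsUpper Φ) (hq : q ≠ 0)
    (k : ℕ) (g g₂ : Gamma0 N)
    (h10 : (g₂ : SL(2, ℤ)) 1 0 = (g : SL(2, ℤ)) 1 0)
    (h00 : (g₂ : SL(2, ℤ)) 0 0 ≡ (q : ℤ) ^ (2 * k) * (g : SL(2, ℤ)) 0 0
      [ZMOD (g : SL(2, ℤ)) 1 0]) :
    Φ (incl N q g₂) = Φ (hDiag N hq k) * Φ (incl N q g) * Φ (hDiag N hq k) := by
  obtain ⟨t, ht⟩ := (Int.modEq_iff_dvd.mp h00.symm)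
  have hqk : (q : ℚ) ^ k ≠ 0 := pow_ne_zero _ (by exact_mod_cast hq)
  have hcol : Φ (incl N q g₂) = Φ (upperI N (t : ℚ) (intCast_mem_awayRing q t)
      * (hDiag N hq k * incl N q g * hDiag N hq k)) := by
    refine map_eq_of_col hU _ _ ?_ ?_
    · rw [Subgroup.coe_mul, Subgroup.coe_mul, Subgroup.coe_mul, coe_incl, coe_incl, coe_upperI,
        coe_hDiag]
      simp only [Matrix.SpecialLinearGroup.coe_mul, upperQ_coe, hDiagQ_coe, Matrix.mul_apply,
        Fin.sum_univ_two, mapQ_apply]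
      have : ((g₂ : SL(2, ℤ)) 0 0 : ℚ)
          = (q : ℚ) ^ (2 * k) * ((g : SL(2, ℤ)) 0 0 : ℚ) + ((g : SL(2, ℤ)) 1 0 : ℚ) * t := by
        have h := congrArg (fun z : ℤ => (z : ℚ)) ht
        simp only [Int.cast_sub, Int.cast_mul, Int.cast_pow, Int.cast_natCast] at h
        linarith
      simp [this]
      field_simp
      ring
    · rw [Subgroup.coe_mul, Subgroup.coe_mul, Subgroup.coe_mul, coe_incl, coe_incl, coe_upperI,
        coe_hDiag]
      simp only [Matrix.SpecialLinearGroup.coe_mul, upperQ_coe, hDiagQ_coe, Matrix.mul_apply,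
        Fin.sum_univ_two, mapQ_apply]
      simp [h10]
      field_simp
  rw [hcol, map_mul, hU.map_upperI, one_mul, map_mul, map_mul]

/-- Commutative form of the unit relation: `Φ (incl g₂) = Φ (incl g) * D`, `D = Φ(h)^2`. -/
theorem map_incl_eq_of_col_unit' {K : Type*} [CommGroup K] {Φ : iharaGroup N q →* K}
    (hU : KillsUpper Φ) (hq : q ≠ 0) (k : ℕ) (g g₂ : Gamma0 N)
    (h10 : (g₂ : SL(2, ℤ)) 1 0 = (g : SL(2, ℤ)) 1 0)
    (h00 : (g₂ : SL(2, ℤ)) 0 0 ≡ (q : ℤ) ^ (2 * k) * (g : SL(2, ℤ)) 0 0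
      [ZMOD (g : SL(2, ℤ)) 1 0]) :
    Φ (incl N q g₂) = Φ (incl N q g) * Φ (hDiag N hq k) ^ 2 := by
  rw [map_incl_eq_of_col_unit hU hq k g g₂ h10 h00, sq, mul_comm (Φ (hDiag N hq k)), mul_assoc]

/-! ### `KillsUpper` from `Φ(T) = 1` -/

theorem upperQ_mul (x y : ℚ) : upperQ x * upperQ y = upperQ (x + y) := by
  ext i j
  fin_cases i <;> fin_cases j <;>
    simp [upperQ_coe, Matrix.mul_apply, Fin.sum_univ_two, add_comm]

theorem upperQ_zero : upperQ 0 = 1 := by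
  ext i j
  fin_cases i <;> fin_cases j <;> simp [upperQ_coe]

theorem upperQ_pow (x : ℚ) (n : ℕ) : upperQ x ^ n = upperQ (n * x) := by
  induction n with
  | zero => simp [upperQ_zero]
  | succ n ih => rw [pow_succ, ih, upperQ_mul]; congr 1; push_cast; ring

theorem mapQ_T_zpow (m : ℤ) : mapQ (ModularGroup.T ^ m) = upperQ m := by
  ext i j
  rw [mapQ_apply, ModularGroup.coe_T_zpow, upperQ_coe]
  fin_cases i <;> fin_cases j <;> simp

/-- If `Φ(T) = 1` and the target has exponent `p` prime to `q`, then `Φ` kills all the upper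
unipotent elements `[[1, x], [0, 1]]`, `x ∈ ℤ[1/q]`. -/
theorem killsUpper_of_T {Φ : iharaGroup N q →* K} {p : ℕ} (hpq : Nat.Coprime p q)
    (hexp : ∀ x : K, x ^ p = 1)
    (hT : ∀ γ : Gamma0 N, (γ : SL(2, ℤ)) = ModularGroup.T → Φ (incl N q γ) = 1) :
    KillsUpper Φ := by
  intro g x hg
  have hgx : (g : SL(2, ℚ)) = upperQ x := by
    ext i j
    rw [hg, upperQ_coe]
  have hxmem : x ∈ awayRing q := by
    have := g.2.1 0 1
    rw [hg] at this
    simpa using this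
  obtain ⟨j, m, hm⟩ := hxmem
  have hTmem : ModularGroup.T ∈ Gamma0 N := by
    rw [Gamma0_mem_iff_dvd, ModularGroup.coe_T]
    simp
  have h1 : g ^ (q ^ j) = incl N q ((⟨ModularGroup.T, hTmem⟩ : Gamma0 N) ^ m) := by
    apply Subtype.ext
    rw [Subgroup.coe_pow, coe_incl, hgx, upperQ_pow, Subgroup.coe_zpow, mapQ_T_zpow]
    congr 1
    rw [← hm]
    push_cast
    ring
  have h2 : Φ g ^ (q ^ j) = 1 := by
    rw [← map_pow, h1, map_zpow, map_zpow, hT _ rfl, _root_.one_zpow]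
  have h3 : Φ g ^ Nat.gcd p (q ^ j) = 1 := pow_gcd_eq_one.mpr ⟨hexp (Φ g), h2⟩
  rw [Nat.Coprime.pow_right j hpq, pow_one] at h3
  exact h3

/-! ### The twist `g ↦ δ⁻¹ g δ`, `δ = diag(q, 1)`, on `Γ₀(N)[1/q]` -/

theorem twist_mem_iharaGroup [NeZero q] {g : SL(2, ℚ)} (hg : g ∈ iharaGroup N q) :
    twist q g ∈ iharaGroup N q := by
  obtain ⟨hg1, y, hy, hgy⟩ := hg
  have hq : q ≠ 0 := NeZero.ne q
  refine ⟨fun i j => ?_, q * y, Subring.mul_mem _ (natCast_mem_awayRing q q) hy, ?_⟩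
  · rw [twist_apply]
    fin_cases i <;> fin_cases j
    · simpa using hg1 0 0
    · have : (g : Matrix (Fin 2) (Fin 2) ℚ) 0 1 / (q : ℚ) ∈ awayRing q := by
        rw [div_eq_mul_inv]
        exact Subring.mul_mem _ (hg1 0 1) (inv_mem_awayRing hq)
      simpa using this
    · have : (q : ℚ) * (g : Matrix (Fin 2) (Fin 2) ℚ) 1 0 ∈ awayRing q :=
        Subring.mul_mem _ (natCast_mem_awayRing q q) (hg1 1 0)
      simpa using this
    · simpa using hg1 1 1
  · rw [twist_apply]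
    simp [hgy]; ring

/-- Conjugation by `δ = diag(q, 1)` as an endomorphism of `Γ₀(N)[1/q]`:
`[[a, b], [c, d]] ↦ [[a, b / q], [q * c, d]]`. -/
def twistI (N q : ℕ) [NeZero q] : iharaGroup N q →* iharaGroup N q :=
  ((twist q).comp (iharaGroup N q).subtype).codRestrict (iharaGroup N q)
    fun g => twist_mem_iharaGroup g.2

theorem coe_twistI [NeZero q] (g : iharaGroup N q) :
    ((twistI N q g : iharaGroup N q) : SL(2, ℚ)) = twist q (g : SL(2, ℚ)) := rfl

theorem twistI_incl [NeZero q] (γ : Gamma0 N) : twistI N q (incl N q γ) = inclTw N q γ :=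
  Subtype.ext rfl

theorem comp_twistI_comp_incl [NeZero q] (Φ : iharaGroup N q →* K) :
    (Φ.comp (twistI N q)).comp (incl N q) = Φ.comp (inclTw N q) := by
  ext γ
  simp [twistI_incl]

/-- If `Φ` kills the upper unipotents, so does `Φ ∘ twistI`. -/
theorem KillsUpper.comp_twistI [NeZero q] {Φ : iharaGroup N q →* K} (hU : KillsUpper Φ) :
    KillsUpper (Φ.comp (twistI N q)) := by
  intro g x hg
  refine hU (twistI N q g) (x / q) ?_
  rw [coe_twistI, twist_apply]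
  have h00 : (g : SL(2, ℚ)) 0 0 = 1 := by
    have := congrFun (congrFun hg 0) 0; simpa using this
  have h01 : (g : SL(2, ℚ)) 0 1 = x := by
    have := congrFun (congrFun hg 0) 1; simpa using this
  have h10 : (g : SL(2, ℚ)) 1 0 = 0 := by
    have := congrFun (congrFun hg 1) 0; simpa using this
  have h11 : (g : SL(2, ℚ)) 1 1 = 1 := by
    have := congrFun (congrFun hg 1) 1; simpa using this
  rw [h00, h01, h10, h11, mul_zero]

end Fermat.Agent.S41.Ihara.Symbol
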