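import Fermat.Agent.S41.Ihara.Surj

/-!
# `Γ₀(N)[1/q] = Γ₀(N) *_{Γ₀(N q)} Γ₀(N)`   (S41, package P2)

Main results:
* `pushoutMap_bijective` : the canonical map from Mathlib's pushout to `iharaGroup N q` is
  bijective;
* `exists_unique_hom` : the universal property (gluing of two homomorphisms on `Γ₀(N)` that agree
  on `Γ₀(N q)` up to conjugation by `diag(q, 1)`).
-/

set_option autoImplicit false

namespace Fermat.Agent.S41.Ihara

open Matrix MatrixGroups CongruenceSubgroup Monoid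

/-- `g` has all entries in `q^{-k} ℤ`. -/
def Lvl (q k : ℕ) (g : SL(2, ℚ)) : Prop :=
  ∀ i j, ∃ m : ℤ, (g : Matrix (Fin 2) (Fin 2) ℚ) i j * (q : ℚ) ^ k = m

theorem exists_lvl {N q : ℕ} (g : iharaGroup N q) : ∃ k, Lvl q k (g : SL(2, ℚ)) := by
  obtain ⟨hg, -⟩ := g.2
  obtain ⟨k00, m00, h00⟩ := hg 0 0
  obtain ⟨k01, m01, h01⟩ := hg 0 1
  obtain ⟨k10, m10, h10⟩ := hg 1 0
  obtain ⟨k11, m11, h11⟩ := hg 1 1
  refine ⟨k00 + k01 + k10 + k11, fun i j => ?_⟩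
  fin_cases i <;> fin_cases j
  · refine ⟨m00 * (q : ℤ) ^ (k01 + k10 + k11), ?_⟩
    push_cast
    show ((g : SL(2, ℚ)) : Matrix (Fin 2) (Fin 2) ℚ) 0 0 * _ = _
    rw [← h00]; ring
  · refine ⟨m01 * (q : ℤ) ^ (k00 + k10 + k11), ?_⟩
    push_cast
    show ((g : SL(2, ℚ)) : Matrix (Fin 2) (Fin 2) ℚ) 0 1 * _ = _
    rw [← h01]; ring
  · refine ⟨m10 * (q : ℤ) ^ (k00 + k01 + k11), ?_⟩
    push_cast
    show ((g : SL(2, ℚ)) : Matrix (Fin 2) (Fin 2) ℚ) 1 0 * _ = _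
    rw [← h10]; ring
  · refine ⟨m11 * (q : ℤ) ^ (k00 + k01 + k10), ?_⟩
    push_cast
    show ((g : SL(2, ℚ)) : Matrix (Fin 2) (Fin 2) ℚ) 1 1 * _ = _
    rw [← h11]; ring

theorem dvd_of_lvl {N q : ℕ} (hq : q.Prime) (hNq : Nat.Coprime N q) (g : iharaGroup N q) {k : ℕ}
    {m : ℤ} (h : ((g : SL(2, ℚ)) : Matrix (Fin 2) (Fin 2) ℚ) 1 0 * (q : ℚ) ^ k = m) :
    (N : ℤ) ∣ m := by
  obtain ⟨-, y, ⟨j, n, hy⟩, hgy⟩ := g.2
  have hq0 : (q : ℚ) ≠ 0 := by exact_mod_cast hq.ne_zero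
  have h1 : (m : ℚ) * (q : ℚ) ^ j = (N : ℚ) * n * (q : ℚ) ^ k := by
    rw [← h, hgy, ← hy]; ring
  have h2 : m * (q : ℤ) ^ j = (N : ℤ) * n * (q : ℤ) ^ k := by exact_mod_cast h1
  have hcop : IsCoprime (N : ℤ) ((q : ℤ) ^ j) := by
    apply IsCoprime.pow_right
    exact_mod_cast (Nat.isCoprime_iff_coprime.mpr hNq)
  have h3 : (N : ℤ) ∣ m * (q : ℤ) ^ j := ⟨n * (q : ℤ) ^ k, by rw [h2]; ring⟩
  exact hcop.dvd_of_dvd_mul_right h3

theorem incl_mem_range (N q : ℕ) [NeZero q] (γ : Gamma0 N) :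
    incl N q γ ∈ (pushoutMap N q).range :=
  ⟨PushoutI.of false γ, pushoutMap_of N q false γ⟩

theorem inclTw_mem_range (N q : ℕ) [NeZero q] (γ : Gamma0 N) :
    inclTw N q γ ∈ (pushoutMap N q).range :=
  ⟨PushoutI.of true γ, pushoutMap_of N q true γ⟩

theorem mem_range_of_lvl {N q : ℕ} [NeZero q] (hq : q.Prime) (hNq : Nat.Coprime N q) :
    ∀ (k : ℕ) (g : iharaGroup N q), Lvl q k (g : SL(2, ℚ)) → g ∈ (pushoutMap N q).range := by
  have hq0 : (q : ℚ) ≠ 0 := by exact_mod_cast hq.ne_zero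
  intro k
  induction k with
  | zero =>
    intro g hg
    choose m hm using hg
    simp only [pow_zero, mul_one] at hm
    have hdet := (g : SL(2, ℚ)).det_coe
    rw [Matrix.det_fin_two, hm, hm, hm, hm] at hdet
    have hdet' : m 0 0 * m 1 1 - m 0 1 * m 1 0 = 1 := by exact_mod_cast hdet
    have hN : (N : ℤ) ∣ m 1 0 := dvd_of_lvl hq hNq g (k := 0) (by simpa using hm 1 0)
    let γ : SL(2, ℤ) := ⟨!![m 0 0, m 0 1; m 1 0, m 1 1], by rw [Matrix.det_fin_two_of]; exact hdet'⟩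
    have hγ : γ ∈ Gamma0 N := by
      rw [Gamma0_mem_iff_dvd]; exact hN
    have hg : g = incl N q ⟨γ, hγ⟩ := by
      apply Subtype.ext
      rw [coe_incl]
      ext i j
      rw [mapQ_apply, hm]
      fin_cases i <;> fin_cases j <;> rfl
    rw [hg]
    exact incl_mem_range N q _
  | succ k ih =>
    intro g hg
    choose m hm using hg
    have hdet := (g : SL(2, ℚ)).det_coe
    rw [Matrix.det_fin_two] at hdet
    -- step A
    have hdetA : (q : ℤ) ∣ m 0 0 * m 1 1 - m 0 1 * m 1 0 := by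
      have h1 : ((m 0 0 * m 1 1 - m 0 1 * m 1 0 : ℤ) : ℚ) = ((q : ℤ) ^ (2 * k + 2) : ℤ) := by
        push_cast
        rw [← hm, ← hm, ← hm, ← hm]
        linear_combination ((q : ℚ) ^ (k + 1)) ^ 2 * hdet
      have h2 : m 0 0 * m 1 1 - m 0 1 * m 1 0 = (q : ℤ) ^ (2 * k + 2) := by exact_mod_cast h1
      rw [h2]
      exact dvd_pow_self _ (by omega)
    obtain ⟨γ₁, hγ₁, hA1, hA2⟩ := exists_Gamma0_row_one hq hNq (m 0 0) (m 0 1) (m 1 0) (m 1 1) hdetA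
    obtain ⟨n₁, hn₁⟩ := hA1
    obtain ⟨n₂, hn₂⟩ := hA2
    set h : iharaGroup N q := incl N q ⟨γ₁, hγ₁⟩ * g with hh
    have hentry : ∀ i j, ((h : SL(2, ℚ)) : Matrix (Fin 2) (Fin 2) ℚ) i j =
        ((γ₁ : Matrix (Fin 2) (Fin 2) ℤ) i 0 : ℚ) * ((g : SL(2, ℚ)) : Matrix (Fin 2) (Fin 2) ℚ) 0 j +
        ((γ₁ : Matrix (Fin 2) (Fin 2) ℤ) i 1 : ℚ) * ((g : SL(2, ℚ)) : Matrix (Fin 2) (Fin 2) ℚ) 1 j := by
      intro i j
      rw [hh, Subgroup.coe_mul, Matrix.SpecialLinearGroup.coe_mul, Matrix.mul_apply,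
        Fin.sum_univ_two, coe_incl, mapQ_apply, mapQ_apply]
    -- entries of h
    set p₁ : ℤ := (γ₁ : Matrix (Fin 2) (Fin 2) ℤ) 0 0 * m 0 0 +
      (γ₁ : Matrix (Fin 2) (Fin 2) ℤ) 0 1 * m 1 0 with hp₁
    set p₂ : ℤ := (γ₁ : Matrix (Fin 2) (Fin 2) ℤ) 0 0 * m 0 1 +
      (γ₁ : Matrix (Fin 2) (Fin 2) ℤ) 0 1 * m 1 1 with hp₂
    have h00 : ((h : SL(2, ℚ)) : Matrix (Fin 2) (Fin 2) ℚ) 0 0 * (q : ℚ) ^ (k + 1) = p₁ := by
      rw [hentry, hp₁]; push_cast; rw [← hm, ← hm]; ring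
    have h01 : ((h : SL(2, ℚ)) : Matrix (Fin 2) (Fin 2) ℚ) 0 1 * (q : ℚ) ^ (k + 1) = p₂ := by
      rw [hentry, hp₂]; push_cast; rw [← hm, ← hm]; ring
    have h10 : ((h : SL(2, ℚ)) : Matrix (Fin 2) (Fin 2) ℚ) 1 0 * (q : ℚ) ^ k = n₁ := by
      have e : ((h : SL(2, ℚ)) : Matrix (Fin 2) (Fin 2) ℚ) 1 0 * (q : ℚ) ^ (k + 1) = (q : ℚ) * n₁ := by
        rw [hentry]
        have := congrArg (Int.cast : ℤ → ℚ) hn₁
        push_cast at this
        rw [← this, ← hm, ← hm]; ring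
      have e2 : ((h : SL(2, ℚ)) : Matrix (Fin 2) (Fin 2) ℚ) 1 0 * (q : ℚ) ^ k * (q : ℚ) =
          (n₁ : ℚ) * (q : ℚ) := by
        rw [mul_assoc, ← pow_succ, e]; ring
      exact mul_right_cancel₀ hq0 e2
    have h11 : ((h : SL(2, ℚ)) : Matrix (Fin 2) (Fin 2) ℚ) 1 1 * (q : ℚ) ^ k = n₂ := by
      have e : ((h : SL(2, ℚ)) : Matrix (Fin 2) (Fin 2) ℚ) 1 1 * (q : ℚ) ^ (k + 1) = (q : ℚ) * n₂ := by
        rw [hentry]
        have := congrArg (Int.cast : ℤ → ℚ) hn₂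
        push_cast at this
        rw [← this, ← hm, ← hm]; ring
      have e2 : ((h : SL(2, ℚ)) : Matrix (Fin 2) (Fin 2) ℚ) 1 1 * (q : ℚ) ^ k * (q : ℚ) =
          (n₂ : ℚ) * (q : ℚ) := by
        rw [mul_assoc, ← pow_succ, e]; ring
      exact mul_right_cancel₀ hq0 e2
    -- step B
    have hdeth := (h : SL(2, ℚ)).det_coe
    rw [Matrix.det_fin_two] at hdeth
    have hdetB : (q : ℤ) ∣ p₁ * n₂ - p₂ * n₁ := by
      have h1 : ((p₁ * n₂ - p₂ * n₁ : ℤ) : ℚ) = ((q : ℤ) ^ (2 * k + 1) : ℤ) := by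
        push_cast
        rw [← h00, ← h01, ← h10, ← h11]
        linear_combination (q : ℚ) ^ (2 * k + 1) * hdeth
      have h2 : p₁ * n₂ - p₂ * n₁ = (q : ℤ) ^ (2 * k + 1) := by exact_mod_cast h1
      rw [h2]
      exact dvd_pow_self _ (by omega)
    obtain ⟨γ₂, hγ₂, hB1, hB2⟩ := exists_Gamma0_row_zero hq hNq p₁ p₂ n₁ n₂ hdetB
    obtain ⟨r₁, hr₁⟩ := hB1
    obtain ⟨r₂, hr₂⟩ := hB2
    set g' : iharaGroup N q := inclTw N q ⟨γ₂, hγ₂⟩ * h with hg'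
    have hentry' : ∀ j, ((g' : SL(2, ℚ)) : Matrix (Fin 2) (Fin 2) ℚ) 0 j =
        ((γ₂ : Matrix (Fin 2) (Fin 2) ℤ) 0 0 : ℚ) * ((h : SL(2, ℚ)) : Matrix (Fin 2) (Fin 2) ℚ) 0 j +
        ((γ₂ : Matrix (Fin 2) (Fin 2) ℤ) 0 1 : ℚ) / (q : ℚ) *
          ((h : SL(2, ℚ)) : Matrix (Fin 2) (Fin 2) ℚ) 1 j := by
      intro j
      rw [hg', Subgroup.coe_mul, Matrix.SpecialLinearGroup.coe_mul, Matrix.mul_apply,
        Fin.sum_univ_two, coe_inclTw, twist_apply]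
      simp [mapQ_apply]
    have hentry'' : ∀ j, ((g' : SL(2, ℚ)) : Matrix (Fin 2) (Fin 2) ℚ) 1 j =
        (q : ℚ) * ((γ₂ : Matrix (Fin 2) (Fin 2) ℤ) 1 0 : ℚ) *
          ((h : SL(2, ℚ)) : Matrix (Fin 2) (Fin 2) ℚ) 0 j +
        ((γ₂ : Matrix (Fin 2) (Fin 2) ℤ) 1 1 : ℚ) * ((h : SL(2, ℚ)) : Matrix (Fin 2) (Fin 2) ℚ) 1 j := by
      intro j
      rw [hg', Subgroup.coe_mul, Matrix.SpecialLinearGroup.coe_mul, Matrix.mul_apply,
        Fin.sum_univ_two, coe_inclTw, twist_apply]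
      simp [mapQ_apply]
    have hlvl : Lvl q k (g' : SL(2, ℚ)) := by
      have hr₁' := congrArg (Int.cast : ℤ → ℚ) hr₁
      have hr₂' := congrArg (Int.cast : ℤ → ℚ) hr₂
      push_cast at hr₁' hr₂'
      rw [← h00, ← h10] at hr₁'
      rw [← h01, ← h11] at hr₂'
      intro i j
      fin_cases i <;> fin_cases j
      · refine ⟨r₁, ?_⟩
        show ((g' : SL(2, ℚ)) : Matrix (Fin 2) (Fin 2) ℚ) 0 0 * (q : ℚ) ^ k = r₁
        rw [hentry']
        have e : (((γ₂ : Matrix (Fin 2) (Fin 2) ℤ) 0 0 : ℚ) *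
            ((h : SL(2, ℚ)) : Matrix (Fin 2) (Fin 2) ℚ) 0 0 +
            ((γ₂ : Matrix (Fin 2) (Fin 2) ℤ) 0 1 : ℚ) / (q : ℚ) *
            ((h : SL(2, ℚ)) : Matrix (Fin 2) (Fin 2) ℚ) 1 0) * (q : ℚ) ^ k * (q : ℚ) =
            (r₁ : ℚ) * (q : ℚ) := by
          field_simp
          linear_combination hr₁'
        exact mul_right_cancel₀ hq0 e
      · refine ⟨r₂, ?_⟩
        show ((g' : SL(2, ℚ)) : Matrix (Fin 2) (Fin 2) ℚ) 0 1 * (q : ℚ) ^ k = r₂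
        rw [hentry']
        have e : (((γ₂ : Matrix (Fin 2) (Fin 2) ℤ) 0 0 : ℚ) *
            ((h : SL(2, ℚ)) : Matrix (Fin 2) (Fin 2) ℚ) 0 1 +
            ((γ₂ : Matrix (Fin 2) (Fin 2) ℤ) 0 1 : ℚ) / (q : ℚ) *
            ((h : SL(2, ℚ)) : Matrix (Fin 2) (Fin 2) ℚ) 1 1) * (q : ℚ) ^ k * (q : ℚ) =
            (r₂ : ℚ) * (q : ℚ) := by
          field_simp
          linear_combination hr₂'
        exact mul_right_cancel₀ hq0 e
      · refine ⟨(γ₂ : Matrix (Fin 2) (Fin 2) ℤ) 1 0 * p₁ + (γ₂ : Matrix (Fin 2) (Fin 2) ℤ) 1 1 * n₁, ?_⟩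
        show ((g' : SL(2, ℚ)) : Matrix (Fin 2) (Fin 2) ℚ) 1 0 * (q : ℚ) ^ k = _
        rw [hentry'']
        push_cast
        rw [← h00, ← h10]
        ring
      · refine ⟨(γ₂ : Matrix (Fin 2) (Fin 2) ℤ) 1 0 * p₂ + (γ₂ : Matrix (Fin 2) (Fin 2) ℤ) 1 1 * n₂, ?_⟩
        show ((g' : SL(2, ℚ)) : Matrix (Fin 2) (Fin 2) ℚ) 1 1 * (q : ℚ) ^ k = _
        rw [hentry'']
        push_cast
        rw [← h01, ← h11]
        ring
    have hmem := ih g' hlvl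
    have hg_eq : g = (incl N q ⟨γ₁, hγ₁⟩)⁻¹ * ((inclTw N q ⟨γ₂, hγ₂⟩)⁻¹ * g') := by
      rw [hg', hh]; group
    rw [hg_eq]
    exact Subgroup.mul_mem _ (Subgroup.inv_mem _ (incl_mem_range N q _))
      (Subgroup.mul_mem _ (Subgroup.inv_mem _ (inclTw_mem_range N q _)) hmem)

theorem pushoutMap_surjective {N q : ℕ} [NeZero q] (hq : q.Prime) (hNq : Nat.Coprime N q) :
    Function.Surjective (pushoutMap N q) := by
  intro g
  obtain ⟨k, hk⟩ := exists_lvl g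
  exact mem_range_of_lvl hq hNq k g hk

theorem pushoutMap_bijective {N q : ℕ} [NeZero q] (hq : q.Prime) (hNq : Nat.Coprime N q) :
    Function.Bijective (pushoutMap N q) :=
  ⟨pushoutMap_injective hq hNq, pushoutMap_surjective hq hNq⟩

/-- **Ihara's amalgam** `Γ₀(N)[1/q] = Γ₀(N) *_{Γ₀(N q)} Γ₀(N)`, universal property:
two homomorphisms `φ₁, φ₂` on `Γ₀(N)` with `φ₁ γ = φ₂ (δ γ δ⁻¹)` for `γ ∈ Γ₀(N q)`
(`δ = diag(q, 1)`) glue uniquely to a homomorphism on `Γ₀(N)[1/q]`. -/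
theorem exists_unique_hom {K : Type*} [Group K] {N q : ℕ} [NeZero q] (hq : q.Prime)
    (hqN : ¬ q ∣ N) (φ₁ φ₂ : Gamma0 N →* K)
    (h : ∀ γ : Gamma0 (N * q), φ₁ (inclLevel N q γ) = φ₂ (conjDelta N q γ)) :
    ∃! Φ : iharaGroup N q →* K, Φ.comp (incl N q) = φ₁ ∧ Φ.comp (inclTw N q) = φ₂ := by
  have hNq : Nat.Coprime N q := (Nat.Coprime.symm ((Nat.Prime.coprime_iff_not_dvd hq).mpr hqN))
  let e : PushoutI (legs N q) ≃* iharaGroup N q :=
    MulEquiv.ofBijective (pushoutMap N q) (pushoutMap_bijective hq hNq)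
  let f : ∀ i : Bool, LG N i →* K := fun i => match i with
    | false => φ₁
    | true => φ₂
  have hf : ∀ i, (f i).comp (legs N q i) = φ₁.comp (inclLevel N q) := by
    intro i
    cases i
    · rfl
    · ext γ
      exact (h γ).symm
  let L : PushoutI (legs N q) →* K := PushoutI.lift f (φ₁.comp (inclLevel N q)) hf
  have he_of : ∀ (i : Bool) (γ : LG N i), e (PushoutI.of i γ) = toIhara N q i γ :=
    fun i γ => pushoutMap_of N q i γ
  refine ⟨L.comp e.symm.toMonoidHom, ⟨?_, ?_⟩, ?_⟩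
  · ext γ
    have : e.symm (incl N q γ) = PushoutI.of false γ := by
      rw [MulEquiv.symm_apply_eq]; exact (he_of false γ).symm
    simp only [MonoidHom.comp_apply, MulEquiv.coe_toMonoidHom, this]
    exact PushoutI.lift_of f _ hf γ
  · ext γ
    have : e.symm (inclTw N q γ) = PushoutI.of true γ := by
      rw [MulEquiv.symm_apply_eq]; exact (he_of true γ).symm
    simp only [MonoidHom.comp_apply, MulEquiv.coe_toMonoidHom, this]
    exact PushoutI.lift_of f _ hf γ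
  · rintro Φ ⟨hΦ₁, hΦ₂⟩
    have hcomp : Φ.comp e.toMonoidHom = L := by
      apply PushoutI.hom_ext
      · intro i
        cases i
        · ext γ
          simp only [MonoidHom.comp_apply, MulEquiv.coe_toMonoidHom, he_of]
          rw [show L (PushoutI.of false γ) = φ₁ γ from PushoutI.lift_of f _ hf γ, ← hΦ₁]
          rfl
        · ext γ
          simp only [MonoidHom.comp_apply, MulEquiv.coe_toMonoidHom, he_of]
          rw [show L (PushoutI.of true γ) = φ₂ γ from PushoutI.lift_of f _ hf γ, ← hΦ₂]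
          rfl
      · ext γ
        simp only [MonoidHom.comp_apply, MulEquiv.coe_toMonoidHom]
        rw [show L (PushoutI.base (legs N q) γ) = φ₁ (inclLevel N q γ) from
          PushoutI.lift_base f _ hf γ, ← hΦ₁]
        have : e (PushoutI.base (legs N q) γ) = incl N q (inclLevel N q γ) :=
          pushoutMap_base N q γ
        rw [this]
        rfl
    ext x
    rw [← hcomp]
    simp

end Fermat.Agent.S41.Ihara
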