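import Fermat.Agent.S41.Ihara.Conj

/-!
# Injectivity of `Γ₀(N) *_{Γ₀(N q)} Γ₀(N) → Γ₀(N)[1/q]`   (S41, package P2)

We track one column of a product of letters.  A letter of type `false` is a `γ ∈ Γ₀(N)` with
`q ∤ c`, a letter of type `true` is `δ⁻¹ γ δ` with `q ∤ b`.
-/

set_option autoImplicit false

namespace Fermat.Agent.S41.Ihara

open Matrix MatrixGroups CongruenceSubgroup Monoid

/-- State A at level `k`: some column is `q^{-k} (x₁, x₂)` with `q ∤ x₁`, `q ∣ x₂`. -/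
def StA (q k : ℕ) (P : Matrix (Fin 2) (Fin 2) ℚ) : Prop :=
  ∃ (j : Fin 2) (x₁ x₂ : ℤ), P 0 j = x₁ / (q : ℚ) ^ k ∧ P 1 j = x₂ / (q : ℚ) ^ k ∧
    ¬ (q : ℤ) ∣ x₁ ∧ (q : ℤ) ∣ x₂

/-- State B at level `k`: some column is `q^{-k} (x₁, x₂)` with `q ∤ x₂`. -/
def StB (q k : ℕ) (P : Matrix (Fin 2) (Fin 2) ℚ) : Prop :=
  ∃ (j : Fin 2) (x₁ x₂ : ℤ), P 0 j = x₁ / (q : ℚ) ^ k ∧ P 1 j = x₂ / (q : ℚ) ^ k ∧
    ¬ (q : ℤ) ∣ x₂

theorem stA_one (q : ℕ) (hq : q.Prime) : StA q 0 (1 : Matrix (Fin 2) (Fin 2) ℚ) := by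
  refine ⟨0, 1, 0, by simp, by simp, ?_, dvd_zero _⟩
  intro h
  have : (q : ℤ) = 1 ∨ (q : ℤ) = -1 := Int.isUnit_iff.mp (isUnit_of_dvd_one h)
  have h1 := hq.one_lt
  omega

theorem stB_one (q : ℕ) (hq : q.Prime) : StB q 0 (1 : Matrix (Fin 2) (Fin 2) ℚ) := by
  refine ⟨1, 0, 1, by simp, by simp, ?_⟩
  intro h
  have : (q : ℤ) = 1 ∨ (q : ℤ) = -1 := Int.isUnit_iff.mp (isUnit_of_dvd_one h)
  have h1 := hq.one_lt
  omega

theorem stB_of_stA {q k : ℕ} (hq : q.Prime) (γ : SL(2, ℤ))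
    (hc : ¬ (q : ℤ) ∣ (γ : Matrix (Fin 2) (Fin 2) ℤ) 1 0) {P : Matrix (Fin 2) (Fin 2) ℚ}
    (hP : StA q k P) : StB q k ((mapQ γ : Matrix (Fin 2) (Fin 2) ℚ) * P) := by
  have hqp : Prime (q : ℤ) := Nat.prime_iff_prime_int.mp hq
  obtain ⟨j, x₁, x₂, h0, h1, hx₁, hx₂⟩ := hP
  refine ⟨j, (γ : Matrix (Fin 2) (Fin 2) ℤ) 0 0 * x₁ + (γ : Matrix (Fin 2) (Fin 2) ℤ) 0 1 * x₂,
    (γ : Matrix (Fin 2) (Fin 2) ℤ) 1 0 * x₁ + (γ : Matrix (Fin 2) (Fin 2) ℤ) 1 1 * x₂, ?_, ?_, ?_⟩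
  · rw [Matrix.mul_apply, Fin.sum_univ_two, h0, h1, mapQ_apply, mapQ_apply]
    push_cast; ring
  · rw [Matrix.mul_apply, Fin.sum_univ_two, h0, h1, mapQ_apply, mapQ_apply]
    push_cast; ring
  · intro h
    have h2 : (q : ℤ) ∣ (γ : Matrix (Fin 2) (Fin 2) ℤ) 1 0 * x₁ :=
      (dvd_add_left (dvd_mul_of_dvd_right hx₂ _)).mp h
    rcases hqp.dvd_or_dvd h2 with h3 | h3
    · exact hc h3
    · exact hx₁ h3

theorem stA_of_stB {q k : ℕ} [NeZero q] (hq : q.Prime) (γ : SL(2, ℤ))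
    (hb : ¬ (q : ℤ) ∣ (γ : Matrix (Fin 2) (Fin 2) ℤ) 0 1) {P : Matrix (Fin 2) (Fin 2) ℚ}
    (hP : StB q k P) : StA q (k + 1) ((twist q (mapQ γ) : Matrix (Fin 2) (Fin 2) ℚ) * P) := by
  have hqp : Prime (q : ℤ) := Nat.prime_iff_prime_int.mp hq
  have hq0 : (q : ℚ) ≠ 0 := by exact_mod_cast hq.ne_zero
  obtain ⟨j, x₁, x₂, h0, h1, hx₂⟩ := hP
  refine ⟨j, q * (γ : Matrix (Fin 2) (Fin 2) ℤ) 0 0 * x₁ + (γ : Matrix (Fin 2) (Fin 2) ℤ) 0 1 * x₂,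
    q * (q * (γ : Matrix (Fin 2) (Fin 2) ℤ) 1 0 * x₁ + (γ : Matrix (Fin 2) (Fin 2) ℤ) 1 1 * x₂),
    ?_, ?_, ?_, dvd_mul_right _ _⟩
  · rw [Matrix.mul_apply, Fin.sum_univ_two, h0, h1, twist_apply]
    simp only [Matrix.of_apply, Matrix.cons_val', Matrix.cons_val_zero, Matrix.cons_val_one,
      Matrix.cons_val_fin_one, mapQ_apply]
    push_cast
    field_simp
    ring
  · rw [Matrix.mul_apply, Fin.sum_univ_two, h0, h1, twist_apply]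
    simp only [Matrix.of_apply, Matrix.cons_val', Matrix.cons_val_zero, Matrix.cons_val_one,
      Matrix.cons_val_fin_one, mapQ_apply]
    push_cast
    field_simp
    ring
  · intro h
    have h2 : (q : ℤ) ∣ (γ : Matrix (Fin 2) (Fin 2) ℤ) 0 1 * x₂ := by
      have h3 : (q : ℤ) ∣ q * (γ : Matrix (Fin 2) (Fin 2) ℤ) 0 0 * x₁ :=
        ⟨(γ : Matrix (Fin 2) (Fin 2) ℤ) 0 0 * x₁, by ring⟩
      exact (dvd_add_right h3).mp h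
    rcases hqp.dvd_or_dvd h2 with h3 | h3
    · exact hb h3
    · exact hx₂ h3

/-- A rational of the form `x / q^k` with `q ∤ x`, `k ≥ 1` is not an integer. -/
theorem not_int_of_div_pow {q k : ℕ} (hq : q.Prime) (hk : 1 ≤ k) {x : ℤ} (hx : ¬ (q : ℤ) ∣ x)
    (m : ℤ) : (x : ℚ) / (q : ℚ) ^ k ≠ m := by
  have hq0 : (q : ℚ) ≠ 0 := by exact_mod_cast hq.ne_zero
  intro h
  have h2 : (x : ℚ) = m * (q : ℚ) ^ k := by
    field_simp at h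
    linarith
  have h3 : x = m * (q : ℤ) ^ k := by exact_mod_cast h2
  apply hx
  rw [h3]
  exact dvd_mul_of_dvd_right (dvd_pow_self _ (by omega)) _

theorem not_integral_of_stA {q k : ℕ} (hq : q.Prime) (hk : 1 ≤ k) {P : Matrix (Fin 2) (Fin 2) ℚ}
    (hP : StA q k P) (γ : SL(2, ℤ)) : (mapQ γ : Matrix (Fin 2) (Fin 2) ℚ) ≠ P := by
  obtain ⟨j, x₁, x₂, h0, -, hx₁, -⟩ := hP
  intro h
  have := congrFun (congrFun h 0) j
  rw [mapQ_apply, h0] at this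
  exact not_int_of_div_pow hq hk hx₁ _ this.symm

theorem not_integral_of_stB {q k : ℕ} (hq : q.Prime) (hk : 1 ≤ k) {P : Matrix (Fin 2) (Fin 2) ℚ}
    (hP : StB q k P) (γ : SL(2, ℤ)) : (mapQ γ : Matrix (Fin 2) (Fin 2) ℚ) ≠ P := by
  obtain ⟨j, x₁, x₂, -, h1, hx₂⟩ := hP
  intro h
  have := congrFun (congrFun h 1) j
  rw [mapQ_apply, h1] at this
  exact not_int_of_div_pow hq hk hx₂ _ this.symm

end Fermat.Agent.S41.Ihara
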