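import Fermat.Agent.S41.Ihara.Inj

/-!
# The pushout `Γ₀(N) *_{Γ₀(N q)} Γ₀(N)` and its injection into `Γ₀(N)[1/q]`   (S41, package P2)
-/

set_option autoImplicit false

namespace Fermat.Agent.S41.Ihara

open Matrix MatrixGroups CongruenceSubgroup Monoid

/-- The two vertex groups (both `Γ₀(N)`). -/
abbrev LG (N : ℕ) : Bool → Type := fun _ => Gamma0 N

/-- The two edge maps `Γ₀(N q) → Γ₀(N)`: `false ↦ inclLevel`, `true ↦ conjDelta`. -/
def legs (N q : ℕ) [NeZero q] : ∀ i : Bool, Gamma0 (N * q) →* LG N i :=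
  fun i => match i with
    | false => inclLevel N q
    | true => conjDelta N q

/-- The two vertex maps `Γ₀(N) → Γ₀(N)[1/q]`: `false ↦ incl`, `true ↦ inclTw`. -/
def toIhara (N q : ℕ) [NeZero q] : ∀ i : Bool, LG N i →* iharaGroup N q :=
  fun i => match i with
    | false => incl N q
    | true => inclTw N q

theorem legs_injective (N q : ℕ) [NeZero q] : ∀ i, Function.Injective (legs N q i) := by
  intro i
  cases i
  · exact inclLevel_injective N q
  · exact conjDelta_injective N q

theorem toIhara_comp_legs (N q : ℕ) [NeZero q] (i : Bool) :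
    (toIhara N q i).comp (legs N q i) = (incl N q).comp (inclLevel N q) := by
  cases i
  · rfl
  · ext γ
    simp only [MonoidHom.comp_apply]
    exact congrArg (fun x : iharaGroup N q => ((x : SL(2, ℚ)) : Matrix (Fin 2) (Fin 2) ℚ) _ _)
      (incl_inclLevel_eq N q γ).symm

/-- The canonical map from the pushout to the Ihara group. -/
def pushoutMap (N q : ℕ) [NeZero q] : PushoutI (legs N q) →* iharaGroup N q :=
  PushoutI.lift (toIhara N q) ((incl N q).comp (inclLevel N q)) (toIhara_comp_legs N q)

/-- The matrix of a list of letters. -/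
def lmat (N q : ℕ) [NeZero q] (l : List (Σ i : Bool, LG N i)) : Matrix (Fin 2) (Fin 2) ℚ :=
  (((l.map fun x => toIhara N q x.1 x.2).prod : iharaGroup N q) : SL(2, ℚ))

theorem lmat_nil (N q : ℕ) [NeZero q] : lmat N q [] = 1 := by
  simp [lmat]

theorem lmat_cons (N q : ℕ) [NeZero q] (x : Σ i : Bool, LG N i) (l : List (Σ i : Bool, LG N i)) :
    lmat N q (x :: l) =
      ((toIhara N q x.1 x.2 : iharaGroup N q) : SL(2, ℚ)).1 * lmat N q l := by
  simp [lmat]

theorem lmat_cons_false (N q : ℕ) [NeZero q] (g : Gamma0 N) (l : List (Σ i : Bool, LG N i)) :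
    lmat N q (⟨false, g⟩ :: l) = (mapQ (g : SL(2, ℤ)) : Matrix (Fin 2) (Fin 2) ℚ) * lmat N q l := by
  rw [lmat_cons]; rfl

theorem lmat_cons_true (N q : ℕ) [NeZero q] (g : Gamma0 N) (l : List (Σ i : Bool, LG N i)) :
    lmat N q (⟨true, g⟩ :: l) =
      (twist q (mapQ (g : SL(2, ℤ))) : Matrix (Fin 2) (Fin 2) ℚ) * lmat N q l := by
  rw [lmat_cons]; rfl

/-- The state of the matrix of a reduced list of letters. -/
theorem state_of_reduced {N q : ℕ} [NeZero q] (hq : q.Prime) (hNq : Nat.Coprime N q) :
    ∀ l : List (Σ i : Bool, LG N i), l.IsChain (fun a b => a.1 ≠ b.1) →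
      (∀ x ∈ l, x.2 ∉ (legs N q x.1).range) →
      (∀ (g : Gamma0 N) (l' : List (Σ i : Bool, LG N i)), l = ⟨false, g⟩ :: l' →
        ∃ k, StB q k (lmat N q l) ∧ (l' ≠ [] → 1 ≤ k)) ∧
      (∀ (g : Gamma0 N) (l' : List (Σ i : Bool, LG N i)), l = ⟨true, g⟩ :: l' →
        ∃ k, 1 ≤ k ∧ StA q k (lmat N q l)) := by
  intro l
  induction l with
  | nil => intro _ _; exact ⟨fun g l' h => by simp at h, fun g l' h => by simp at h⟩
  | cons x t ih =>
    intro hchain hred
    have hredt : ∀ y ∈ t, y.2 ∉ (legs N q y.1).range := fun y hy => hred y (List.mem_cons_of_mem _ hy)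
    have hchaint : t.IsChain (fun a b => a.1 ≠ b.1) := by
      have := hchain.tail
      simpa using this
    obtain ⟨ih1, ih2⟩ := ih hchaint hredt
    constructor
    · intro g l' hl
      obtain ⟨rfl, rfl⟩ := List.cons.inj hl
      have hg : ¬ (q : ℤ) ∣ ((g : SL(2, ℤ)) : Matrix (Fin 2) (Fin 2) ℤ) 1 0 := by
        have := hred ⟨false, g⟩ List.mem_cons_self
        intro hdvd
        exact this ((mem_range_inclLevel_iff hNq g).mpr hdvd)
      rw [lmat_cons_false]
      cases t with
      | nil =>
        refine ⟨0, ?_, fun h => absurd rfl h⟩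
        rw [lmat_nil]
        exact stB_of_stA hq _ hg (stA_one q hq)
      | cons y t' =>
        have hy : y.1 = true := by
          have := hchain.rel
          simpa using this.symm
        obtain ⟨yi, yg⟩ := y
        simp only at hy
        subst hy
        obtain ⟨k, hk, hst⟩ := ih2 yg t' rfl
        exact ⟨k, stB_of_stA hq _ hg hst, fun _ => hk⟩
    · intro g l' hl
      obtain ⟨rfl, rfl⟩ := List.cons.inj hl
      have hg : ¬ (q : ℤ) ∣ ((g : SL(2, ℤ)) : Matrix (Fin 2) (Fin 2) ℤ) 0 1 := by
        have := hred ⟨true, g⟩ List.mem_cons_self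
        intro hdvd
        exact this ((mem_range_conjDelta_iff g).mpr hdvd)
      rw [lmat_cons_true]
      cases t with
      | nil =>
        refine ⟨1, le_refl _, ?_⟩
        rw [lmat_nil]
        exact stA_of_stB hq _ hg (stB_one q hq)
      | cons y t' =>
        have hy : y.1 = false := by
          have := hchain.rel
          simpa using this.symm
        obtain ⟨yi, yg⟩ := y
        simp only at hy
        subst hy
        obtain ⟨k, hst, -⟩ := ih1 yg t' rfl
        exact ⟨k + 1, by omega, stA_of_stB hq _ hg hst⟩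

/-- The matrix of a non-empty reduced list of letters is not the matrix of an element of
`Γ₀(N q)`. -/
theorem lmat_ne_of_reduced {N q : ℕ} [NeZero q] (hq : q.Prime) (hNq : Nat.Coprime N q)
    (l : List (Σ i : Bool, LG N i)) (hl : l ≠ []) (hchain : l.IsChain (fun a b => a.1 ≠ b.1))
    (hred : ∀ x ∈ l, x.2 ∉ (legs N q x.1).range) (γ : Gamma0 (N * q)) :
    lmat N q l ≠ (mapQ (γ : SL(2, ℤ)) : Matrix (Fin 2) (Fin 2) ℚ) := by
  obtain ⟨h1, h2⟩ := state_of_reduced hq hNq l hchain hred
  cases l with
  | nil => exact absurd rfl hl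
  | cons x t =>
    obtain ⟨i, g⟩ := x
    cases i
    · obtain ⟨k, hst, hk⟩ := h1 g t rfl
      cases t with
      | nil =>
        intro h
        rw [lmat_cons_false, lmat_nil, mul_one] at h
        have hgγ : (g : SL(2, ℤ)) = (γ : SL(2, ℤ)) := by
          apply mapQ_injective
          exact Subtype.ext h
        apply hred ⟨false, g⟩ List.mem_cons_self
        exact ⟨γ, Subtype.ext hgγ.symm⟩
      | cons y t' =>
        exact (not_integral_of_stB hq (hk (by simp)) hst _).symm
    · obtain ⟨k, hk, hst⟩ := h2 g t rfl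
      exact (not_integral_of_stA hq hk hst _).symm

end Fermat.Agent.S41.Ihara
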