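import Fermat.Agent.S41.Ihara.Push

/-!
# `pushoutMap` is injective   (S41, package P2)
-/

set_option autoImplicit false

namespace Fermat.Agent.S41.Ihara

open Matrix MatrixGroups CongruenceSubgroup Monoid

theorem pushoutMap_base (N q : ℕ) [NeZero q] (h : Gamma0 (N * q)) :
    pushoutMap N q (PushoutI.base (legs N q) h) = incl N q (inclLevel N q h) := by
  simp [pushoutMap, PushoutI.lift_base]

theorem pushoutMap_of (N q : ℕ) [NeZero q] (i : Bool) (g : LG N i) :
    pushoutMap N q (PushoutI.of i g) = toIhara N q i g := by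
  simp [pushoutMap, PushoutI.lift_of]

theorem pushoutMap_ofCoprodI_prod (N q : ℕ) [NeZero q] (w : CoprodI.Word (LG N)) :
    ((pushoutMap N q (PushoutI.ofCoprodI (φ := legs N q) w.prod) : iharaGroup N q) : SL(2, ℚ)).1
      = lmat N q w.toList := by
  rw [CoprodI.Word.prod, map_list_prod, map_list_prod, List.map_map, List.map_map, lmat]
  congr 3

theorem eq_one_of_mem_transversal {N q : ℕ} [NeZero q]
    (d : PushoutI.NormalWord.Transversal (legs N q)) (i : Bool) (g : LG N i)
    (hg : g ∈ d.set i) (hr : g ∈ (legs N q i).range) : g = 1 := by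
  have hc := (d.compl i).1
  have := @hc (⟨⟨g, hr⟩, ⟨1, d.one_mem i⟩⟩ : (legs N q i).range × d.set i)
    ⟨⟨1, one_mem _⟩, ⟨g, hg⟩⟩ (by simp)
  have h2 := congrArg (fun x : (legs N q i).range × d.set i => (x.2 : LG N i)) this
  simpa using h2.symm

theorem pushoutMap_injective {N q : ℕ} [NeZero q] (hq : q.Prime) (hNq : Nat.Coprime N q) :
    Function.Injective (pushoutMap N q) := by
  classical
  rw [injective_iff_map_eq_one]
  intro x hx
  obtain ⟨d⟩ := PushoutI.NormalWord.transversal_nonempty (legs N q) (legs_injective N q)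
  obtain ⟨w, rfl⟩ : ∃ w : PushoutI.NormalWord d, w.prod = x :=
    ⟨PushoutI.NormalWord.equiv x, (PushoutI.NormalWord.equiv (d := d)).symm_apply_apply x⟩
  have hchain : w.toList.IsChain (fun a b => a.1 ≠ b.1) := w.chain_ne
  have hred : ∀ y ∈ w.toList, y.2 ∉ (legs N q y.1).range := by
    intro y hy hr
    obtain ⟨i, g⟩ := y
    have h1 := eq_one_of_mem_transversal d i g (w.normalized i g hy) hr
    exact w.ne_one ⟨i, g⟩ hy h1
  rw [PushoutI.NormalWord.prod, map_mul, pushoutMap_base] at hx
  have hx2 : ((pushoutMap N q (PushoutI.ofCoprodI (φ := legs N q) w.toWord.prod) :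
      iharaGroup N q) : SL(2, ℚ)) = mapQ (((w.head)⁻¹ : Gamma0 (N * q)) : SL(2, ℤ)) := by
    have h2 := eq_inv_of_mul_eq_one_right hx
    rw [h2]
    rw [← map_inv, ← map_inv, coe_incl, coe_inclLevel]
  have hx3 : lmat N q w.toList = (mapQ (((w.head)⁻¹ : Gamma0 (N * q)) : SL(2, ℤ)) :
      Matrix (Fin 2) (Fin 2) ℚ) := by
    rw [← pushoutMap_ofCoprodI_prod, hx2]
  by_cases hl : w.toList = []
  · have hw : w.toWord = CoprodI.Word.empty := by
      ext1
      exact hl
    rw [hw, CoprodI.Word.prod_empty, map_one, map_one, mul_one] at hx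
    have h1 : w.head = 1 := by
      apply inclLevel_injective N q
      apply incl_injective N q
      rw [hx, map_one, map_one]
    rw [PushoutI.NormalWord.prod, hw, h1]
    simp
  · exact absurd hx3 (lmat_ne_of_reduced hq hNq w.toList hl hchain hred _)

end Fermat.Agent.S41.Ihara
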