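import Fermat.Agent.S41.Ihara.PushInj

/-!
# `pushoutMap` is surjective   (S41, package P2)

Induction on the exponent `k` of the denominator `q^k` of `g ∈ Γ₀(N)[1/q]`.
-/

set_option autoImplicit false

namespace Fermat.Agent.S41.Ihara

open Matrix MatrixGroups CongruenceSubgroup Monoid

/-- Solving a linear congruence: if `q ∤ m` there is `b` with `q ∣ x + b * m`. -/
theorem exists_dvd_add_mul {q : ℕ} (hq : q.Prime) {m : ℤ} (hm : ¬ (q : ℤ) ∣ m) (x : ℤ) :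
    ∃ b : ℤ, (q : ℤ) ∣ x + b * m := by
  have hqp : Prime (q : ℤ) := Nat.prime_iff_prime_int.mp hq
  have hcop : IsCoprime m (q : ℤ) := by
    rw [isCoprime_comm]
    exact (Prime.coprime_iff_not_dvd hqp).mpr hm
  obtain ⟨u, v, huv⟩ := hcop
  refine ⟨-x * u, ⟨x * v, ?_⟩⟩
  linear_combination (-x) * huv

/-- Row elimination (second row): some `γ ∈ Γ₀(N)` makes the second row of `γ * M` divisible
by `q`, if `q ∣ det M`. -/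
theorem exists_Gamma0_row_one {N q : ℕ} (hq : q.Prime) (hNq : Nat.Coprime N q) (m₁ m₂ m₃ m₄ : ℤ)
    (hdet : (q : ℤ) ∣ m₁ * m₄ - m₂ * m₃) :
    ∃ γ : SL(2, ℤ), γ ∈ Gamma0 N ∧
      (q : ℤ) ∣ (γ : Matrix (Fin 2) (Fin 2) ℤ) 1 0 * m₁ + (γ : Matrix (Fin 2) (Fin 2) ℤ) 1 1 * m₃ ∧
      (q : ℤ) ∣ (γ : Matrix (Fin 2) (Fin 2) ℤ) 1 0 * m₂ + (γ : Matrix (Fin 2) (Fin 2) ℤ) 1 1 * m₄ := by
  have hqp : Prime (q : ℤ) := Nat.prime_iff_prime_int.mp hq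
  have hNq' : ¬ (q : ℤ) ∣ (N : ℤ) := by
    intro h
    have h1 : q ∣ N := by exact_mod_cast h
    have h2 : q ∣ Nat.gcd N q := Nat.dvd_gcd h1 dvd_rfl
    rw [hNq] at h2
    exact hq.one_lt.ne' (Nat.dvd_one.mp h2)
  by_cases h1 : (q : ℤ) ∣ m₁
  · by_cases h2 : (q : ℤ) ∣ m₂
    · -- γ = [[a, b], [N, q]] with a q - b N = 1
      have hcop : IsCoprime (q : ℤ) (N : ℤ) := (Prime.coprime_iff_not_dvd hqp).mpr hNq'
      obtain ⟨a, b, hab⟩ := hcop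
      refine ⟨⟨!![a, -b; N, q], by rw [Matrix.det_fin_two_of]; linarith⟩, ?_, ?_, ?_⟩
      · rw [Gamma0_mem_iff_dvd]; simp
      · show (q : ℤ) ∣ (N : ℤ) * m₁ + q * m₃
        exact dvd_add (dvd_mul_of_dvd_right h1 _) (dvd_mul_right _ _)
      · show (q : ℤ) ∣ (N : ℤ) * m₂ + q * m₄
        exact dvd_add (dvd_mul_of_dvd_right h2 _) (dvd_mul_right _ _)
    · -- γ = [[1, 0], [N c₀, 1]] with q ∣ N c₀ m₂ + m₄
      have hNm : ¬ (q : ℤ) ∣ (N : ℤ) * m₂ := fun h =>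
        (hqp.dvd_or_dvd h).elim hNq' h2
      obtain ⟨c₀, hc₀⟩ := exists_dvd_add_mul hq hNm m₄
      refine ⟨⟨!![1, 0; N * c₀, 1], by rw [Matrix.det_fin_two_of]; ring⟩, ?_, ?_, ?_⟩
      · rw [Gamma0_mem_iff_dvd]; simp
      · show (q : ℤ) ∣ (N : ℤ) * c₀ * m₁ + 1 * m₃
        have h3 : (q : ℤ) ∣ m₂ * ((N : ℤ) * c₀ * m₁ + 1 * m₃) := by
          have e : m₂ * ((N : ℤ) * c₀ * m₁ + 1 * m₃) =
              m₁ * (m₄ + c₀ * ((N : ℤ) * m₂)) - (m₁ * m₄ - m₂ * m₃) := by ring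
          rw [e]
          exact dvd_sub (dvd_mul_of_dvd_right hc₀ _) hdet
        exact (hqp.dvd_or_dvd h3).resolve_left h2
      · show (q : ℤ) ∣ (N : ℤ) * c₀ * m₂ + 1 * m₄
        have e : (N : ℤ) * c₀ * m₂ + 1 * m₄ = m₄ + c₀ * ((N : ℤ) * m₂) := by ring
        rw [e]; exact hc₀
  · -- γ = [[1, 0], [N c₀, 1]] with q ∣ N c₀ m₁ + m₃
    have hNm : ¬ (q : ℤ) ∣ (N : ℤ) * m₁ := fun h =>
      (hqp.dvd_or_dvd h).elim hNq' h1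
    obtain ⟨c₀, hc₀⟩ := exists_dvd_add_mul hq hNm m₃
    refine ⟨⟨!![1, 0; N * c₀, 1], by rw [Matrix.det_fin_two_of]; ring⟩, ?_, ?_, ?_⟩
    · rw [Gamma0_mem_iff_dvd]; simp
    · show (q : ℤ) ∣ (N : ℤ) * c₀ * m₁ + 1 * m₃
      have e : (N : ℤ) * c₀ * m₁ + 1 * m₃ = m₃ + c₀ * ((N : ℤ) * m₁) := by ring
      rw [e]; exact hc₀
    · show (q : ℤ) ∣ (N : ℤ) * c₀ * m₂ + 1 * m₄
      have h3 : (q : ℤ) ∣ m₁ * ((N : ℤ) * c₀ * m₂ + 1 * m₄) := by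
        have e : m₁ * ((N : ℤ) * c₀ * m₂ + 1 * m₄) =
            m₂ * (m₃ + c₀ * ((N : ℤ) * m₁)) + (m₁ * m₄ - m₂ * m₃) := by ring
        rw [e]
        exact dvd_add (dvd_mul_of_dvd_right hc₀ _) hdet
      exact (hqp.dvd_or_dvd h3).resolve_left h1

/-- Row elimination (first row): some `γ ∈ Γ₀(N)` makes the first row of `γ * M` divisible
by `q`, if `q ∣ det M`. -/
theorem exists_Gamma0_row_zero {N q : ℕ} (hq : q.Prime) (hNq : Nat.Coprime N q) (m₁ m₂ m₃ m₄ : ℤ)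
    (hdet : (q : ℤ) ∣ m₁ * m₄ - m₂ * m₃) :
    ∃ γ : SL(2, ℤ), γ ∈ Gamma0 N ∧
      (q : ℤ) ∣ (γ : Matrix (Fin 2) (Fin 2) ℤ) 0 0 * m₁ + (γ : Matrix (Fin 2) (Fin 2) ℤ) 0 1 * m₃ ∧
      (q : ℤ) ∣ (γ : Matrix (Fin 2) (Fin 2) ℤ) 0 0 * m₂ + (γ : Matrix (Fin 2) (Fin 2) ℤ) 0 1 * m₄ := by
  have hqp : Prime (q : ℤ) := Nat.prime_iff_prime_int.mp hq
  have hNq' : ¬ (q : ℤ) ∣ (N : ℤ) := by
    intro h
    have h1 : q ∣ N := by exact_mod_cast h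
    have h2 : q ∣ Nat.gcd N q := Nat.dvd_gcd h1 dvd_rfl
    rw [hNq] at h2
    exact hq.one_lt.ne' (Nat.dvd_one.mp h2)
  by_cases h3 : (q : ℤ) ∣ m₃
  · by_cases h4 : (q : ℤ) ∣ m₄
    · -- γ = [[1 + b N, b], [N, 1]] with q ∣ 1 + b N
      obtain ⟨b, hb⟩ := exists_dvd_add_mul hq hNq' 1
      refine ⟨⟨!![1 + b * N, b; N, 1], by rw [Matrix.det_fin_two_of]; ring⟩, ?_, ?_, ?_⟩
      · rw [Gamma0_mem_iff_dvd]; simp
      · show (q : ℤ) ∣ (1 + b * (N : ℤ)) * m₁ + b * m₃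
        exact dvd_add (dvd_mul_of_dvd_left hb _) (dvd_mul_of_dvd_right h3 _)
      · show (q : ℤ) ∣ (1 + b * (N : ℤ)) * m₂ + b * m₄
        exact dvd_add (dvd_mul_of_dvd_left hb _) (dvd_mul_of_dvd_right h4 _)
    · -- γ = [[1, b], [0, 1]] with q ∣ m₂ + b m₄
      obtain ⟨b, hb⟩ := exists_dvd_add_mul hq h4 m₂
      refine ⟨⟨!![1, b; 0, 1], by rw [Matrix.det_fin_two_of]; ring⟩, ?_, ?_, ?_⟩
      · rw [Gamma0_mem_iff_dvd]; simp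
      · show (q : ℤ) ∣ 1 * m₁ + b * m₃
        have h5 : (q : ℤ) ∣ m₄ * (1 * m₁ + b * m₃) := by
          have e : m₄ * (1 * m₁ + b * m₃) = m₃ * (m₂ + b * m₄) + (m₁ * m₄ - m₂ * m₃) := by ring
          rw [e]
          exact dvd_add (dvd_mul_of_dvd_right hb _) hdet
        exact (hqp.dvd_or_dvd h5).resolve_left h4
      · show (q : ℤ) ∣ 1 * m₂ + b * m₄
        have e : 1 * m₂ + b * m₄ = m₂ + b * m₄ := by ring
        rw [e]; exact hb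
  · -- γ = [[1, b], [0, 1]] with q ∣ m₁ + b m₃
    obtain ⟨b, hb⟩ := exists_dvd_add_mul hq h3 m₁
    refine ⟨⟨!![1, b; 0, 1], by rw [Matrix.det_fin_two_of]; ring⟩, ?_, ?_, ?_⟩
    · rw [Gamma0_mem_iff_dvd]; simp
    · show (q : ℤ) ∣ 1 * m₁ + b * m₃
      have e : 1 * m₁ + b * m₃ = m₁ + b * m₃ := by ring
      rw [e]; exact hb
    · show (q : ℤ) ∣ 1 * m₂ + b * m₄
      have h5 : (q : ℤ) ∣ m₃ * (1 * m₂ + b * m₄) := by
        have e : m₃ * (1 * m₂ + b * m₄) = m₄ * (m₁ + b * m₃) - (m₁ * m₄ - m₂ * m₃) := by ring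
        rw [e]
        exact dvd_sub (dvd_mul_of_dvd_right hb _) hdet
      exact (hqp.dvd_or_dvd h5).resolve_left h3

end Fermat.Agent.S41.Ihara
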